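/-
S51 support library (helper5): shared infrastructure for the `3`- and `5`-torsion plumbing
(chunks A and B of the S51 plan): duplication formula for the `x`-coordinate, counting points
by `x`-coordinates, lines in small `𝔽_p`-modules, Galois-fixed elements are rational.
-/
import Mathlib
import Fermat.Prelude.Def_FLTPrelim_GaloisRep
import Fermat.Prelude.Def_FLTPrelim_ModularRep

set_option autoImplicit false

open WeierstrassCurve WeierstrassCurve.Affine

noncomputable section

namespace Fermat.Agent.LibS51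

section Formulas

variable {F : Type*} [Field F] (E : WeierstrassCurve.Affine F)

/-- `f(x) = 4x³ + b₂x² + 2b₄x + b₆`, the square of `2y + a₁x + a₃` on the curve. -/
def fP (x : F) : F := 4 * x ^ 3 + E.b₂ * x ^ 2 + 2 * E.b₄ * x + E.b₆

/-- The numerator `x⁴ - b₄x² - 2b₆x - b₈` of the duplication formula. -/
def phi2 (x : F) : F := x ^ 4 - E.b₄ * x ^ 2 - 2 * E.b₆ * x - E.b₈

/-- The `3`-division polynomial as a function. -/
def psi3 (x : F) : F := 3 * x ^ 4 + E.b₂ * x ^ 3 + 3 * E.b₄ * x ^ 2 + 3 * E.b₆ * x + E.b₈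

theorem phi2_eq (x : F) : phi2 E x = x * fP E x - psi3 E x := by
  simp only [phi2, fP, psi3]
  ring

variable {E}

theorem sq_sub_negY {x y : F} (h : E.Equation x y) : (y - E.negY x y) ^ 2 = fP E x := by
  rw [Affine.equation_iff] at h
  simp only [fP, Affine.negY, WeierstrassCurve.b₂, WeierstrassCurve.b₄, WeierstrassCurve.b₆]
  linear_combination 4 * h

theorem fP_ne_zero {x y : F} (h : E.Equation x y) (hy : y ≠ E.negY x y) : fP E x ≠ 0 := by
  rw [← sq_sub_negY h]
  exact pow_ne_zero 2 (sub_ne_zero.mpr hy)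

/-- At a nonsingular point with `ψ₃(x) = 0` the `y`-coordinate is not fixed by negation. -/
theorem ne_negY_of_psi3 [CharZero F] {x y : F} (h : E.Nonsingular x y) (hψ : psi3 E x = 0) :
    y ≠ E.negY x y := by
  intro hy
  rw [Affine.nonsingular_iff'] at h
  obtain ⟨heq, hns⟩ := h
  rw [Affine.equation_iff'] at heq
  have hd : 2 * y + E.a₁ * x + E.a₃ = 0 := by
    rw [Affine.negY] at hy
    linear_combination hy
  simp only [psi3, WeierstrassCurve.b₂, WeierstrassCurve.b₄, WeierstrassCurve.b₆,
    WeierstrassCurve.b₈] at hψ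
  have key : 16 * (E.a₁ * y - (3 * x ^ 2 + 2 * E.a₂ * x + E.a₄)) ^ 2 = 0 := by
    linear_combination (-16 : F) * hψ +
      (2 * (2 * y + E.a₁ * x + E.a₃) * (24 * x + 2 * (E.a₁ ^ 2 + 4 * E.a₂)) -
        4 * E.a₁ ^ 2 * (2 * y + E.a₁ * x + E.a₃) +
        16 * E.a₁ * (E.a₁ * y - (3 * x ^ 2 + 2 * E.a₂ * x + E.a₄))) * hd +
      (-8 * (24 * x + 2 * (E.a₁ ^ 2 + 4 * E.a₂))) * heq
  have h16 : (16 : F) ≠ 0 := by norm_num
  have hX : E.a₁ * y - (3 * x ^ 2 + 2 * E.a₂ * x + E.a₄) = 0 := by
    rcases mul_eq_zero.mp key with h1 | h1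
    · exact absurd h1 h16
    · exact pow_eq_zero_iff (two_ne_zero) |>.mp h1
  rcases hns with h1 | h1
  · exact h1 hX
  · exact h1 hd

variable [DecidableEq F]

/-- The duplication formula for the `x`-coordinate. -/
theorem addX_mul_fP {x y : F} (h : E.Equation x y) (hy : y ≠ E.negY x y) :
    E.addX x x (E.slope x x y y) * fP E x = phi2 E x := by
  have hd : y - E.negY x y ≠ 0 := sub_ne_zero.mpr hy
  rw [← sq_sub_negY h, Affine.slope_of_Y_ne rfl hy, Affine.addX]
  rw [Affine.equation_iff] at h
  field_simp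
  simp only [phi2, Affine.negY, WeierstrassCurve.b₄, WeierstrassCurve.b₆, WeierstrassCurve.b₈]
  linear_combination (-(E.a₁ ^ 2) - 4 * E.a₂ - 8 * x) * h

end Formulas

section Points

variable {F : Type*} [Field F] {E : WeierstrassCurve.Affine F}

/-- The `x`-coordinate of a point (`0` at the origin). -/
def xc : E.Point → F
  | .zero => 0
  | .some x _ _ => x

@[simp] theorem xc_some {x y : F} (h : E.Nonsingular x y) : xc (Point.some x y h) = x := rfl

theorem xc_neg (P : E.Point) : xc (-P) = xc P := by
  cases P <;> rfl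

theorem eq_or_eq_neg_of_xc_eq {P Q : E.Point} (hP : P ≠ 0) (hQ : Q ≠ 0) (h : xc P = xc Q) :
    P = Q ∨ P = -Q := by
  cases P with
  | zero => exact absurd rfl hP
  | some x₁ y₁ h₁ =>
    cases Q with
    | zero => exact absurd rfl hQ
    | some x₂ y₂ h₂ => exact Point.X_eq_iff.mp h

variable [DecidableEq F]

/-- Doubling a point which is not `2`-torsion: the result is nonzero and its `x`-coordinate is
given by the duplication formula. -/
theorem xc_add_self {x y : F} (h : E.Nonsingular x y) (hy : y ≠ E.negY x y) :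
    Point.some x y h + Point.some x y h ≠ 0 ∧
      xc (Point.some x y h + Point.some x y h) * fP E x = phi2 E x := by
  rw [Point.add_self_of_Y_ne hy]
  exact ⟨Point.some_ne_zero _, addX_mul_fP h.1 hy⟩

theorem add_self_eq_zero_iff {x y : F} (h : E.Nonsingular x y) :
    Point.some x y h + Point.some x y h = 0 ↔ y = E.negY x y := by
  constructor
  · intro h0
    by_contra hy
    exact (xc_add_self h hy).1 h0
  · intro hy
    exact Point.add_self_of_Y_eq hy

/-- A nonzero `3`-torsion point has `ψ₃(x) = 0`. -/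
theorem psi3_eq_zero_of_three {x y : F} (h : E.Nonsingular x y)
    (h3 : Point.some x y h + Point.some x y h + Point.some x y h = 0) : psi3 E x = 0 := by
  have hy : y ≠ E.negY x y := by
    intro hy
    rw [Point.add_self_of_Y_eq hy, zero_add] at h3
    exact Point.some_ne_zero h h3
  obtain ⟨-, hx⟩ := xc_add_self h hy
  have h2 : Point.some x y h + Point.some x y h = -Point.some x y h :=
    eq_neg_of_add_eq_zero_left h3
  rw [h2, xc_neg, xc_some, phi2_eq] at hx
  linear_combination hx

/-- A point with `ψ₃(x) = 0` which is not `2`-torsion is `3`-torsion. -/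
theorem three_of_psi3 {x y : F} (h : E.Nonsingular x y) (hψ : psi3 E x = 0)
    (hy : y ≠ E.negY x y) :
    Point.some x y h + Point.some x y h + Point.some x y h = 0 := by
  obtain ⟨hne, hx⟩ := xc_add_self h hy
  rw [phi2_eq, hψ, sub_zero] at hx
  have hxx : xc (Point.some x y h + Point.some x y h) = xc (Point.some x y h) :=
    mul_right_cancel₀ (fP_ne_zero h.1 hy) hx
  rcases eq_or_eq_neg_of_xc_eq hne (Point.some_ne_zero h) hxx with h1 | h1
  · exact absurd (add_eq_left.mp h1) (Point.some_ne_zero h)
  · rw [h1]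
    exact neg_add_cancel _

/-- Points whose `x`-coordinates are roots of a nonzero polynomial form a finite set with at
most `2 deg + 1` elements. -/
theorem finite_and_ncard_le_of_roots (q : Polynomial F) (hq : q ≠ 0) (S : Set E.Point)
    (hS : ∀ P ∈ S, P ≠ 0 → q.eval (xc P) = 0) :
    S.Finite ∧ S.ncard ≤ 2 * q.natDegree + 1 := by
  classical
  let y0 : F → F := fun x => if hx : ∃ y, E.Equation x y then hx.choose else 0
  let g : E.Point → Option (F × F) := fun P =>
    match P with
    | .zero => none
    | .some x y _ => some (x, y)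
  have hg : Function.Injective g := by
    rintro (_ | ⟨x₁, y₁, h₁⟩) (_ | ⟨x₂, y₂, h₂⟩) h
    · rfl
    · simp [g] at h
    · simp [g] at h
    · simp only [g, Option.some.injEq, Prod.mk.injEq] at h
      obtain ⟨rfl, rfl⟩ := h
      rfl
  let T : Finset (Option (F × F)) := insert none
    ((q.roots.toFinset.image (fun x => some (x, y0 x))) ∪
      (q.roots.toFinset.image (fun x => some (x, E.negY x (y0 x)))))
  have hsub : g '' S ⊆ ↑T := by
    rintro _ ⟨P, hP, rfl⟩
    cases P with
    | zero => simp [g, T]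
    | some x y h =>
      have hroot : x ∈ q.roots.toFinset := by
        rw [Multiset.mem_toFinset, Polynomial.mem_roots hq]
        exact hS _ hP (Point.some_ne_zero h)
      have hex : ∃ y, E.Equation x y := ⟨y, h.1⟩
      have hy0 : E.Equation x (y0 x) := by
        simp only [y0, dif_pos hex]
        exact hex.choose_spec
      have hmem : (some (x, y) : Option (F × F)) ∈ T := by
        rcases Affine.Y_eq_of_X_eq h.1 hy0 rfl with h1 | h1
        · refine Finset.mem_insert_of_mem (Finset.mem_union_left _ ?_)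
          exact Finset.mem_image.mpr ⟨x, hroot, by rw [h1]⟩
        · refine Finset.mem_insert_of_mem (Finset.mem_union_right _ ?_)
          exact Finset.mem_image.mpr ⟨x, hroot, by rw [h1]⟩
      exact hmem
  have hroots : q.roots.toFinset.card ≤ q.natDegree :=
    (Multiset.toFinset_card_le _).trans (Polynomial.card_roots' q)
  have hT : T.card ≤ 2 * q.natDegree + 1 := by
    refine (Finset.card_insert_le _ _).trans ?_
    have h1 := Finset.card_union_le (q.roots.toFinset.image (fun x => some (x, y0 x)))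
      (q.roots.toFinset.image (fun x => some (x, E.negY x (y0 x))))
    have h2 : (q.roots.toFinset.image (fun x => some (x, y0 x))).card ≤ q.natDegree :=
      Finset.card_image_le.trans hroots
    have h3 : (q.roots.toFinset.image (fun x => some (x, E.negY x (y0 x)))).card ≤ q.natDegree :=
      Finset.card_image_le.trans hroots
    omega
  have hfin : (g '' S).Finite := T.finite_toSet.subset hsub
  have hSfin : S.Finite := hfin.of_finite_image hg.injOn
  refine ⟨hSfin, ?_⟩
  calc S.ncard = (g '' S).ncard := (Set.ncard_image_of_injective S hg).symm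
    _ ≤ (↑T : Set (Option (F × F))).ncard := Set.ncard_le_ncard hsub T.finite_toSet
    _ = T.card := Set.ncard_coe_finset T
    _ ≤ _ := hT

end Points

section LinearAlgebra

/-- A proper nonzero submodule of an `𝔽_p`-module with fewer than `p³` elements is a line. -/
theorem exists_generator_of_proper {p : ℕ} [Fact p.Prime] {V : Type*} [AddCommGroup V]
    [Module (ZMod p) V] [Finite V] (hcard : Nat.card V < p ^ 3) (N : Submodule (ZMod p) V)
    (hbot : N ≠ ⊥) (htop : N ≠ ⊤) :
    ∃ P ∈ N, P ≠ 0 ∧ ∀ Q ∈ N, ∃ c : ZMod p, Q = c • P := by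
  have : Module.Finite (ZMod p) V := Module.Finite.of_finite
  have h1 : Nat.card V = p ^ Module.finrank (ZMod p) V := by
    have := Module.natCard_eq_pow_finrank (K := ZMod p) (V := V)
    rwa [Nat.card_zmod] at this
  have hp : p.Prime := Fact.out
  have h2 : Module.finrank (ZMod p) V < 3 := by
    rw [h1] at hcard
    exact (Nat.pow_lt_pow_iff_right hp.one_lt).mp hcard
  have h3 : Module.finrank (ZMod p) N < Module.finrank (ZMod p) V := Submodule.finrank_lt htop
  have h4 : Module.finrank (ZMod p) N ≠ 0 := by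
    intro h0
    exact hbot (Submodule.finrank_eq_zero.mp h0)
  have h5 : Module.finrank (ZMod p) N = 1 := by omega
  obtain ⟨v, hv, hgen⟩ := finrank_eq_one_iff'.mp h5
  refine ⟨v.1, v.2, fun h => hv (Subtype.ext h), fun Q hQ => ?_⟩
  obtain ⟨c, hc⟩ := hgen ⟨Q, hQ⟩
  refine ⟨c, ?_⟩
  have := congrArg (fun w : N => (w : V)) hc
  exact this.symm

end LinearAlgebra

section Galois

/-- An element of `ℚ̄` fixed by the whole Galois group is rational. -/
theorem exists_rat_of_fixed (x : AlgebraicClosure ℚ)
    (h : ∀ σ : AlgebraicClosure ℚ ≃ₐ[ℚ] AlgebraicClosure ℚ, σ x = x) :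
    ∃ q : ℚ, algebraMap ℚ (AlgebraicClosure ℚ) q = x := by
  have h0 : Algebra.IsAlgebraic ℚ (AlgebraicClosure ℚ) := AlgebraicClosure.isAlgebraic ℚ
  have h1 : IsAlgClosure ℚ (AlgebraicClosure ℚ) := ⟨inferInstance, h0⟩
  have h2 : IsGalois ℚ (AlgebraicClosure ℚ) := IsAlgClosure.isGalois ℚ (AlgebraicClosure ℚ)
  exact (InfiniteGalois.mem_range_algebraMap_iff_fixed x).mpr h

variable (E : WeierstrassCurve.Affine ℚ)

theorem xc_smul (σ : AlgebraicClosure ℚ ≃ₐ[ℚ] AlgebraicClosure ℚ)
    (P : (E⁄(AlgebraicClosure ℚ)).Point) : xc (σ • P) = σ (xc P) := by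
  cases P with
  | zero => exact (map_zero σ).symm
  | some x y h => rfl

theorem smul_eq_zero_iff (σ : AlgebraicClosure ℚ ≃ₐ[ℚ] AlgebraicClosure ℚ)
    (P : (E⁄(AlgebraicClosure ℚ)).Point) : σ • P = 0 ↔ P = 0 := by
  constructor
  · intro h
    have h0 : Point.map (W' := E) σ.toAlgHom P = Point.map (W' := E) σ.toAlgHom 0 := h
    exact Point.map_injective σ.toAlgHom h0
  · rintro rfl
    rfl

end Galois

end Fermat.Agent.LibS51

end
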