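/-
S51 support library (helper2), chunk D: the conductor-15 elliptic curve y^2 = x (x - 1) (x - 81)
has no rational points besides its 2-torsion.  Classical 2-descent: every rational point with
y != 0 has a 2-torsion translate whose x, x - 1, x - 81 are all squares (class_int, key); halving
such a point gives a rational point of smaller height (descent_aux).  Pure Mathlib.
-/
import Mathlib

set_option autoImplicit false

namespace Fermat.Agent.S51Lib
namespace D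

lemma three_dvd_of_sq_add_sq {x y : ℤ} (h : (3:ℤ) ∣ x^2 + y^2) : (3:ℤ) ∣ x ∧ (3:ℤ) ∣ y := by
  have h1 : ((x^2 + y^2 : ℤ) : ZMod 3) = 0 := (ZMod.intCast_zmod_eq_zero_iff_dvd _ 3).mpr h
  push_cast at h1
  have key : ∀ a b : ZMod 3, a^2 + b^2 = 0 → a = 0 ∧ b = 0 := by decide
  obtain ⟨ha, hb⟩ := key _ _ h1
  exact ⟨(ZMod.intCast_zmod_eq_zero_iff_dvd x 3).mp ha, (ZMod.intCast_zmod_eq_zero_iff_dvd y 3).mp hb⟩

lemma sq_of_pos_coprime {m R z : ℤ} (hm : 0 < m) (hc : IsCoprime m R) (h : m * R = z^2) :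
    ∃ a : ℤ, m = a^2 := by
  obtain ⟨a, ha | ha⟩ := Int.sq_of_isCoprime hc h
  · exact ⟨a, ha⟩
  · exfalso; nlinarith [sq_nonneg a]

lemma three_dvd_of_sq {N K : ℤ} (h : N^2 = 9 * K) : ∃ N' : ℤ, N = 3 * N' ∧ N'^2 = K := by
  have h3 : (3:ℤ) ∣ N := by
    apply Int.prime_three.dvd_of_dvd_pow (n := 2)
    rw [h]; exact ⟨3 * K, by ring⟩
  obtain ⟨N', rfl⟩ := h3
  exact ⟨N', rfl, by nlinarith⟩

lemma cancel_sq {s N R : ℤ} (hs : s ≠ 0) (h : N^2 = s^2 * R) : ∃ z : ℤ, N = s * z ∧ z^2 = R := by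
  have h1 : s ∣ N := by
    rw [← Int.pow_dvd_pow_iff (n := 2) (by norm_num)]
    exact ⟨R, h⟩
  obtain ⟨z, rfl⟩ := h1
  refine ⟨z, rfl, ?_⟩
  have hs2 : s^2 ≠ 0 := pow_ne_zero 2 hs
  apply mul_left_cancel₀ hs2
  rw [← h]; ring

/-- coprimality of `μ` with `p * μ - q * e^2` when `μ` is coprime to `q` and `e`. -/
lemma coprime_lin {μ e p q : ℤ} (hco : IsCoprime μ e) (hq : IsCoprime μ q) :
    IsCoprime μ (p * μ - q * e^2) := by
  have h1 : IsCoprime μ (q * e^2) := hq.mul_right hco.pow_right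
  have h2 := (h1.neg_right).add_mul_left_right p
  rw [show p * μ - q * e^2 = -(q * e^2) + μ * p by ring]
  exact h2

lemma coprime_three {μ : ℤ} (h : ¬ (3:ℤ) ∣ μ) : IsCoprime μ 3 :=
  ((Int.prime_three.coprime_iff_not_dvd).mpr h).symm

lemma L4 {μ e N : ℤ} (hμ : 0 < μ) (hco : IsCoprime μ e)
    (h : N^2 = μ * ((81*μ - e^2) * (μ - e^2))) : ∃ a : ℤ, 81 * μ = a^2 := by
  have h2 : IsCoprime μ (81*μ - e^2) := by
    have := coprime_lin (p := 81) hco (isCoprime_one_right (x := μ))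
    simpa using this
  have h3 : IsCoprime μ (μ - e^2) := by
    have := coprime_lin (p := 1) hco (isCoprime_one_right (x := μ))
    simpa using this
  obtain ⟨s, hs⟩ := sq_of_pos_coprime hμ (h2.mul_right h3) h.symm
  exact ⟨9*s, by rw [hs]; ring⟩

lemma L3 {μ e N : ℤ} (hμ : 0 < μ) (hco : IsCoprime μ e) (h3e : ¬ (3:ℤ) ∣ e)
    (h : N^2 = μ * ((27*μ - e^2) * (μ - 3*e^2))) : ∃ a : ℤ, 27 * μ = a^2 := by
  by_cases h3 : (3:ℤ) ∣ μ
  · obtain ⟨μ', rfl⟩ := h3
    have hμ' : 0 < μ' := by linarith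
    have hco' : IsCoprime μ' e := hco.of_mul_left_right
    obtain ⟨N', -, hN'⟩ := three_dvd_of_sq (N := N) (K := μ' * ((81*μ' - e^2) * (μ' - e^2)))
      (by rw [h]; ring)
    obtain ⟨a, ha⟩ := L4 hμ' hco' hN'
    exact ⟨a, by rw [← ha]; ring⟩
  · exfalso
    have hc3 : IsCoprime μ 3 := coprime_three h3
    have h2 : IsCoprime μ (27*μ - e^2) := by
      have := coprime_lin (p := 27) hco (isCoprime_one_right (x := μ))
      simpa using this
    have h4 : IsCoprime μ (μ - 3*e^2) := by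
      have := coprime_lin (p := 1) hco hc3
      simpa using this
    obtain ⟨s, rfl⟩ := sq_of_pos_coprime hμ (h2.mul_right h4) h.symm
    have hs : s ≠ 0 := by rintro rfl; simp at hμ
    obtain ⟨z, -, hz⟩ := cancel_sq hs h
    have hd : (3:ℤ) ∣ z^2 + (e*s)^2 := ⟨9*s^4 - 27*s^2*e^2 + e^4, by rw [hz]; ring⟩
    obtain ⟨-, hes⟩ := three_dvd_of_sq_add_sq hd
    rcases Int.prime_three.dvd_or_dvd hes with h' | h'
    · exact h3e h'
    · exact h3 (Dvd.dvd.pow h' (by norm_num))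

lemma L2 {μ e N : ℤ} (hμ : 0 < μ) (hco : IsCoprime μ e) (h3e : ¬ (3:ℤ) ∣ e)
    (h : N^2 = μ * ((9*μ - e^2) * (μ - 9*e^2))) : ∃ a : ℤ, 9 * μ = a^2 := by
  by_cases h3 : (3:ℤ) ∣ μ
  · obtain ⟨μ', rfl⟩ := h3
    have hμ' : 0 < μ' := by linarith
    have hco' : IsCoprime μ' e := hco.of_mul_left_right
    obtain ⟨N', -, hN'⟩ := three_dvd_of_sq (N := N) (K := μ' * ((27*μ' - e^2) * (μ' - 3*e^2)))
      (by rw [h]; ring)
    obtain ⟨a, ha⟩ := L3 hμ' hco' h3e hN'
    exact ⟨a, by rw [← ha]; ring⟩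
  · have hc3 : IsCoprime μ 3 := coprime_three h3
    have h2 : IsCoprime μ (9*μ - e^2) := by
      have := coprime_lin (p := 9) hco (isCoprime_one_right (x := μ))
      simpa using this
    have h4 : IsCoprime μ (μ - 9*e^2) := by
      have := coprime_lin (p := 1) hco (q := 9) (by
        have := hc3.pow_right (n := 2); norm_num at this; exact this)
      simpa using this
    obtain ⟨s, rfl⟩ := sq_of_pos_coprime hμ (h2.mul_right h4) h.symm
    exact ⟨3*s, by ring⟩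

lemma L1 {μ e N : ℤ} (hμ : 0 < μ) (hco : IsCoprime μ e) (h3e : ¬ (3:ℤ) ∣ e)
    (h : N^2 = μ * ((3*μ - e^2) * (μ - 27*e^2))) : ∃ a : ℤ, 3 * μ = a^2 := by
  by_cases h3 : (3:ℤ) ∣ μ
  · obtain ⟨μ', rfl⟩ := h3
    have hμ' : 0 < μ' := by linarith
    have hco' : IsCoprime μ' e := hco.of_mul_left_right
    obtain ⟨N', -, hN'⟩ := three_dvd_of_sq (N := N) (K := μ' * ((9*μ' - e^2) * (μ' - 9*e^2)))
      (by rw [h]; ring)
    obtain ⟨a, ha⟩ := L2 hμ' hco' h3e hN'
    exact ⟨a, by rw [← ha]; ring⟩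
  · exfalso
    have hc3 : IsCoprime μ 3 := coprime_three h3
    have h2 : IsCoprime μ (3*μ - e^2) := by
      have := coprime_lin (p := 3) hco (isCoprime_one_right (x := μ))
      simpa using this
    have h4 : IsCoprime μ (μ - 27*e^2) := by
      have := coprime_lin (p := 1) hco (q := 27) (by
        have := hc3.pow_right (n := 3); norm_num at this; exact this)
      simpa using this
    obtain ⟨s, rfl⟩ := sq_of_pos_coprime hμ (h2.mul_right h4) h.symm
    have hs : s ≠ 0 := by rintro rfl; simp at hμ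
    obtain ⟨z, -, hz⟩ := cancel_sq hs h
    have hd : (3:ℤ) ∣ z^2 + (e*s)^2 := ⟨s^4 - 27*s^2*e^2 + 9*e^4, by rw [hz]; ring⟩
    obtain ⟨-, hes⟩ := three_dvd_of_sq_add_sq hd
    rcases Int.prime_three.dvd_or_dvd hes with h' | h'
    · exact h3e h'
    · exact h3 (Dvd.dvd.pow h' (by norm_num))

lemma L0 {m e N : ℤ} (hm : 0 < m) (hco : IsCoprime m e)
    (h : N^2 = m * ((m - e^2) * (m - 81*e^2))) : ∃ a : ℤ, m = a^2 := by
  by_cases h3 : (3:ℤ) ∣ m
  · have h3e : ¬ (3:ℤ) ∣ e := by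
      intro h3e
      have := hco.isUnit_of_dvd' h3 h3e
      norm_num [Int.isUnit_iff] at this
    obtain ⟨μ', rfl⟩ := h3
    have hμ' : 0 < μ' := by linarith
    have hco' : IsCoprime μ' e := hco.of_mul_left_right
    obtain ⟨N', -, hN'⟩ := three_dvd_of_sq (N := N) (K := μ' * ((3*μ' - e^2) * (μ' - 27*e^2)))
      (by rw [h]; ring)
    obtain ⟨a, ha⟩ := L1 hμ' hco' h3e hN'
    exact ⟨a, by rw [← ha]⟩
  · have hc3 : IsCoprime m 3 := coprime_three h3
    have h2 : IsCoprime m (m - e^2) := by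
      have := coprime_lin (p := 1) hco (isCoprime_one_right (x := m))
      simpa using this
    have h4 : IsCoprime m (m - 81*e^2) := by
      have := coprime_lin (p := 1) hco (q := 81) (by
        have := hc3.pow_right (n := 4); norm_num at this; exact this)
      simpa using this
    exact sq_of_pos_coprime hm (h2.mul_right h4) h.symm

lemma z4_a : ∀ η k l b : ZMod 4, (η = 1 ∨ η = -1) →
    (2*k+1)^2 - (2*l+1)^2 = 2 * η * (2*b+1)^2 → False := by decide
lemma z4_b : ∀ η k l c : ZMod 4, (η = 1 ∨ η = -1) →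
    (2*k+1)^2 - 81*(2*l+1)^2 = 2 * η * (2*c+1)^2 → False := by decide
lemma z4_c : ∀ η l b c : ZMod 4, (η = 1 ∨ η = -1) →
    10 * (2*l+1)^2 = η * (b^2 - c^2) → False := by decide
lemma z2_a : ∀ η k l b : ZMod 2, (2*k)^2 - (2*l+1)^2 = 2 * η * b^2 → False := by decide
lemma z2_b : ∀ η k l b : ZMod 2, (2*k+1)^2 - (2*l)^2 = 2 * η * b^2 → False := by decide

lemma parity_excl {a e b c η : ℤ} (hco : IsCoprime a e) (hη : η = 1 ∨ η = -1 ∨ η = 5 ∨ η = -5)
    (hA : a^2 - e^2 = 2 * η * b^2) (hB : a^2 - 81*e^2 = 2 * η * c^2) : False := by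
  have hη4 : ((η : ℤ) : ZMod 4) = 1 ∨ ((η : ℤ) : ZMod 4) = -1 := by
    rcases hη with rfl | rfl | rfl | rfl
    · left; norm_num
    · right; norm_num
    · left; decide
    · right; decide
  obtain ⟨k, rfl | rfl⟩ := Int.even_or_odd' a <;> obtain ⟨l, rfl | rfl⟩ := Int.even_or_odd' e
  · have := hco.isUnit_of_dvd' (dvd_mul_right 2 k) (dvd_mul_right 2 l)
    norm_num [Int.isUnit_iff] at this
  · have := congrArg (Int.cast : ℤ → ZMod 2) hA
    push_cast at this
    exact z2_a _ _ _ _ this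
  · have := congrArg (Int.cast : ℤ → ZMod 2) hA
    push_cast at this
    exact z2_b _ _ _ _ this
  · obtain ⟨b₁, rfl | rfl⟩ := Int.even_or_odd' b
    swap
    · have := congrArg (Int.cast : ℤ → ZMod 4) hA
      push_cast at this
      exact z4_a _ _ _ _ hη4 this
    obtain ⟨c₁, rfl | rfl⟩ := Int.even_or_odd' c
    swap
    · have := congrArg (Int.cast : ℤ → ZMod 4) hB
      push_cast at this
      exact z4_b _ _ _ _ hη4 this
    have h3 : 10 * (2*l+1)^2 = η * (b₁^2 - c₁^2) := by linarith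
    have := congrArg (Int.cast : ℤ → ZMod 4) h3
    push_cast at this
    exact z4_c _ _ _ _ hη4 this

lemma divisors_eighty {g : ℕ} (hg : g ∣ 80) :
    ∃ d t : ℤ, (d = 1 ∨ d = 2 ∨ d = 5 ∨ d = 10) ∧ (g : ℤ) = d * t^2 := by
  have hmem : g ∈ Nat.divisors 80 := Nat.mem_divisors.mpr ⟨hg, by norm_num⟩
  have hd : Nat.divisors 80 = {1,2,4,5,8,10,16,20,40,80} := by decide
  rw [hd] at hmem
  simp only [Finset.mem_insert, Finset.mem_singleton] at hmem
  rcases hmem with rfl | rfl | rfl | rfl | rfl | rfl | rfl | rfl | rfl | rfl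
  · exact ⟨1, 1, by norm_num, by norm_num⟩
  · exact ⟨2, 1, by norm_num, by norm_num⟩
  · exact ⟨1, 2, by norm_num, by norm_num⟩
  · exact ⟨5, 1, by norm_num, by norm_num⟩
  · exact ⟨2, 2, by norm_num, by norm_num⟩
  · exact ⟨10, 1, by norm_num, by norm_num⟩
  · exact ⟨1, 4, by norm_num, by norm_num⟩
  · exact ⟨5, 2, by norm_num, by norm_num⟩
  · exact ⟨10, 2, by norm_num, by norm_num⟩
  · exact ⟨5, 4, by norm_num, by norm_num⟩

lemma class_AB {a e z : ℤ} (hco : IsCoprime a e) (hz : z ≠ 0)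
    (h : z^2 = (a^2 - e^2) * (a^2 - 81*e^2)) :
    ∃ δ b c : ℤ, (δ = 1 ∨ δ = -1 ∨ δ = 5 ∨ δ = -5) ∧
      a^2 - e^2 = δ * b^2 ∧ a^2 - 81*e^2 = δ * c^2 := by
  have hAB : (a^2 - e^2) * (a^2 - 81*e^2) ≠ 0 := by rw [← h]; exact pow_ne_zero 2 hz
  have hA0 : a^2 - e^2 ≠ 0 := left_ne_zero_of_mul hAB
  have hg : 0 < Int.gcd (a^2 - e^2) (a^2 - 81*e^2) := Int.gcd_pos_of_ne_zero_left _ hA0
  obtain ⟨A₁, B₁, h1, hA1, hB1⟩ := Int.exists_gcd_one hg
  have hg80 : (Int.gcd (a^2 - e^2) (a^2 - 81*e^2) : ℤ) ∣ 80 := by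
    obtain ⟨p, q, hpq⟩ := (hco.pow (m := 2) (n := 2))
    have d1 : (Int.gcd (a^2 - e^2) (a^2 - 81*e^2) : ℤ) ∣ a^2 - e^2 := Int.gcd_dvd_left ..
    have d2 : (Int.gcd (a^2 - e^2) (a^2 - 81*e^2) : ℤ) ∣ a^2 - 81*e^2 := Int.gcd_dvd_right ..
    have : (80 : ℤ) = p * (81 * (a^2 - e^2) - (a^2 - 81*e^2)) + q * ((a^2 - e^2) - (a^2 - 81*e^2)) := by
      linear_combination (-80 : ℤ) * hpq
    rw [this]
    exact dvd_add (Dvd.dvd.mul_left (dvd_sub (Dvd.dvd.mul_left d1 81) d2) p)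
      (Dvd.dvd.mul_left (dvd_sub d1 d2) q)
  obtain ⟨d, t, hd, hgdt⟩ := divisors_eighty (Int.natCast_dvd_natCast.mp (by exact_mod_cast hg80))
  have hg0 : (Int.gcd (a^2 - e^2) (a^2 - 81*e^2) : ℤ) ≠ 0 := by exact_mod_cast hg.ne'
  clear hg
  generalize (Int.gcd (a^2 - e^2) (a^2 - 81*e^2) : ℤ) = g at *
  have hz2 : z^2 = g^2 * (A₁ * B₁) := by rw [h, hA1, hB1]; ring
  obtain ⟨z₁, rfl, hz₁⟩ := cancel_sq hg0 hz2
  have hz₁0 : z₁ ≠ 0 := by
    rintro rfl
    simp at hz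
  have hpos : 0 < A₁ * B₁ := by rw [← hz₁]; positivity
  obtain ⟨b, hb⟩ := Int.sq_of_gcd_eq_one h1 hz₁.symm
  obtain ⟨c, hc⟩ := Int.sq_of_gcd_eq_one (by rwa [Int.gcd_comm]) ((mul_comm B₁ A₁).trans hz₁.symm)
  have ht0 : t ≠ 0 := by
    rintro rfl
    apply hg0; rw [hgdt]; ring
  -- sign
  obtain ⟨ε, hε, hAε, hBε⟩ : ∃ ε : ℤ, (ε = 1 ∨ ε = -1) ∧ A₁ = ε * b^2 ∧ B₁ = ε * c^2 := by
    rcases hb with hb | hb <;> rcases hc with hc | hc
    · exact ⟨1, Or.inl rfl, by rw [hb]; ring, by rw [hc]; ring⟩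
    · exfalso; rw [hb, hc] at hpos; nlinarith [sq_nonneg (b*c)]
    · exfalso; rw [hb, hc] at hpos; nlinarith [sq_nonneg (b*c)]
    · exact ⟨-1, Or.inr rfl, by rw [hb]; ring, by rw [hc]; ring⟩
  have hAf : a^2 - e^2 = (ε * d) * (t * b)^2 := by rw [hA1, hAε, hgdt]; ring
  have hBf : a^2 - 81*e^2 = (ε * d) * (t * c)^2 := by rw [hB1, hBε, hgdt]; ring
  rcases hd with rfl | rfl | rfl | rfl
  · refine ⟨ε * 1, t * b, t * c, ?_, hAf, hBf⟩
    rcases hε with rfl | rfl <;> simp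
  · exfalso
    refine parity_excl (η := ε) (b := t * b) (c := t * c) hco ?_ ?_ ?_
    · rcases hε with rfl | rfl <;> simp
    · rw [hAf]; ring
    · rw [hBf]; ring
  · refine ⟨ε * 5, t * b, t * c, ?_, hAf, hBf⟩
    rcases hε with rfl | rfl <;> simp
  · exfalso
    refine parity_excl (η := ε * 5) (b := t * b) (c := t * c) hco ?_ ?_ ?_
    · rcases hε with rfl | rfl <;> simp
    · rw [hAf]; ring
    · rw [hBf]; ring

lemma rat_int_of_sq {Y : ℚ} {K : ℤ} (h : Y^2 = K) : ∃ N : ℤ, Y = N := by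
  have hden : (Y^2).den = 1 := by rw [h]; exact Rat.den_intCast K
  rw [Rat.den_pow] at hden
  have h1 : Y.den = 1 := by
    rcases Nat.pow_eq_one.mp hden with h1 | h1
    · exact h1
    · norm_num at h1
  exact ⟨Y.num, ((Rat.den_eq_one_iff Y).mp h1).symm⟩

/-- Integer form of the 2-descent classification. -/
lemma class_int {m e N : ℤ} (he : e ≠ 0) (hco : IsCoprime m e) (hN : N ≠ 0)
    (h : N^2 = m * ((m - e^2) * (m - 81*e^2))) :
    ∃ a δ b c : ℤ, a ≠ 0 ∧ b ≠ 0 ∧ c ≠ 0 ∧ (δ = 1 ∨ δ = -1 ∨ δ = 5 ∨ δ = -5) ∧ m = a^2 ∧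
      a^2 - e^2 = δ * b^2 ∧ a^2 - 81*e^2 = δ * c^2 := by
  have he2 : 0 < e^2 := by positivity
  have hN2 : 0 < N^2 := by positivity
  have hm : 0 < m := by
    by_contra hm
    rw [not_lt] at hm
    have h1 : m - e^2 < 0 := by linarith
    have h2 : m - 81*e^2 < 0 := by linarith
    have h3 : 0 < (m - e^2) * (m - 81*e^2) := mul_pos_of_neg_of_neg h1 h2
    have h4 : m * ((m - e^2) * (m - 81*e^2)) ≤ 0 := mul_nonpos_of_nonpos_of_nonneg hm h3.le
    linarith
  obtain ⟨a, rfl⟩ := L0 hm hco h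
  have ha : a ≠ 0 := by rintro rfl; simp at hm
  have hco' : IsCoprime a e := (IsCoprime.pow_left_iff (by norm_num : 0 < 2)).mp hco
  obtain ⟨z, rfl, hz⟩ := cancel_sq ha h
  have hz0 : z ≠ 0 := by rintro rfl; simp at hN
  obtain ⟨δ, b, c, hδ, hA, hB⟩ := class_AB hco' hz0 hz
  have hprod : (a^2 - e^2) * (a^2 - 81*e^2) ≠ 0 := by rw [← hz]; exact pow_ne_zero 2 hz0
  have hb : b ≠ 0 := by
    rintro rfl
    apply hprod; rw [hA]; ring
  have hc : c ≠ 0 := by
    rintro rfl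
    apply hprod; rw [hB]; ring
  exact ⟨a, δ, b, c, ha, hb, hc, hδ, rfl, hA, hB⟩

lemma key {x y : ℚ} (hy : y ≠ 0) (h : y^2 = x * (x - 1) * (x - 81)) :
    ∃ u v w : ℚ, u^2 - 1 = v^2 ∧ u^2 - 81 = w^2 ∧ v ≠ 0 ∧ w ≠ 0 ∧
      (u^2 = x ∨ u^2 = 81 / x ∨ u^2 = 81 * (x - 1) / (x - 81) ∨ u^2 = (x - 81) / (x - 1)) := by
  have hy2 : y^2 ≠ 0 := pow_ne_zero 2 hy
  have hx0 : x ≠ 0 := by rintro rfl; apply hy2; rw [h]; ring
  have hx1 : x - 1 ≠ 0 := by intro h0; apply hy2; rw [h, h0]; ring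
  have hx81 : x - 81 ≠ 0 := by intro h0; apply hy2; rw [h, h0]; ring
  have hn : 0 < x.den := x.den_pos
  have hnq : (x.den : ℚ) ≠ 0 := by exact_mod_cast hn.ne'
  have hxmn : x = (x.num : ℚ) / x.den := (Rat.num_div_den x).symm
  have hcop : IsCoprime x.num (x.den : ℤ) := by
    rw [Int.isCoprime_iff_gcd_eq_one]
    exact x.reduced
  have hY : (y * x.den^2)^2 =
      ((x.num * x.den * (x.num - x.den) * (x.num - 81 * x.den) : ℤ) : ℚ) := by
    push_cast
    rw [mul_pow, h]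
    nth_rewrite 1 2 3 [hxmn]
    field_simp
  obtain ⟨N, hN⟩ := rat_int_of_sq hY
  have hN2 : N^2 = x.num * x.den * (x.num - x.den) * (x.num - 81 * x.den) := by
    have := hY; rw [hN] at this; exact_mod_cast this
  have hN0 : N ≠ 0 := by
    rintro rfl
    have h0 : y * (x.den : ℚ)^2 = 0 := by rw [hN]; simp
    rcases mul_eq_zero.mp h0 with h0 | h0
    · exact hy h0
    · exact hnq (pow_eq_zero_iff (by norm_num) |>.mp h0)
  have hc1 : IsCoprime (x.den : ℤ) (x.num * ((x.num - x.den) * (x.num - 81 * x.den))) := by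
    have h0 : IsCoprime (x.den : ℤ) x.num := hcop.symm
    have h1 : IsCoprime (x.den : ℤ) (x.num - x.den) := by
      have h1 := h0.add_mul_left_right (-1)
      rw [show x.num - (x.den : ℤ) = x.num + x.den * (-1) by ring]
      exact h1
    have h2 : IsCoprime (x.den : ℤ) (x.num - 81 * x.den) := by
      have h2 := h0.add_mul_left_right (-81)
      rw [show x.num - 81 * (x.den : ℤ) = x.num + x.den * (-81) by ring]
      exact h2
    exact h0.mul_right (h1.mul_right h2)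
  obtain ⟨e, he⟩ := sq_of_pos_coprime (by exact_mod_cast hn) hc1 (by rw [hN2]; ring)
  have he0 : e ≠ 0 := by
    rintro rfl
    have : (x.den : ℤ) = 0 := by rw [he]; ring
    exact hn.ne' (by exact_mod_cast this)
  rw [he] at hN2 hcop
  have hco : IsCoprime x.num e := (IsCoprime.pow_right_iff (by norm_num : 0 < 2)).mp hcop
  obtain ⟨N', rfl, hN'⟩ := cancel_sq he0 (show N^2 = e^2 * (x.num * ((x.num - e^2) * (x.num - 81*e^2))) by
    rw [hN2]; ring)
  have hN'0 : N' ≠ 0 := by rintro rfl; simp at hN0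
  obtain ⟨a, δ, b, c, ha, hb, hc, hδ, hm, hA, hB⟩ := class_int he0 hco hN'0 hN'
  have haq : (a : ℚ) ≠ 0 := by exact_mod_cast ha
  have hbq : (b : ℚ) ≠ 0 := by exact_mod_cast hb
  have hcq : (c : ℚ) ≠ 0 := by exact_mod_cast hc
  have heq : (e : ℚ) ≠ 0 := by exact_mod_cast he0
  have hAq : (a : ℚ)^2 - (e : ℚ)^2 = (δ : ℚ) * (b : ℚ)^2 := by exact_mod_cast hA
  have hBq : (a : ℚ)^2 - 81 * (e : ℚ)^2 = (δ : ℚ) * (c : ℚ)^2 := by exact_mod_cast hB
  have hx : x = (a : ℚ)^2 / (e : ℚ)^2 := by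
    rw [hxmn, hm]
    have : (x.den : ℚ) = (e : ℚ)^2 := by exact_mod_cast he
    rw [this]; push_cast; rfl
  rcases hδ with rfl | rfl | rfl | rfl
  · norm_num at hAq hBq
    refine ⟨a / e, b / e, c / e, ?_, ?_, div_ne_zero hbq heq, div_ne_zero hcq heq, Or.inl ?_⟩
    · field_simp; linarith
    · field_simp; linarith
    · rw [hx]; field_simp
  · norm_num at hAq hBq
    refine ⟨9 * e / a, c / a, 9 * b / a, ?_, ?_, div_ne_zero hcq haq,
      div_ne_zero (mul_ne_zero (by norm_num) hbq) haq, Or.inr (Or.inl ?_)⟩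
    · field_simp; linarith
    · field_simp; linarith
    · rw [hx]; field_simp; norm_num
  · norm_num at hAq hBq
    refine ⟨9 * b / c, 4 * a / c, 36 * e / c, ?_, ?_,
      div_ne_zero (mul_ne_zero (by norm_num) haq) hcq,
      div_ne_zero (mul_ne_zero (by norm_num) heq) hcq, Or.inr (Or.inr (Or.inl ?_))⟩
    · field_simp; linarith
    · field_simp; linarith
    · have h1 : x - 1 = 5 * (b:ℚ)^2 / (e:ℚ)^2 := by rw [hx]; field_simp; linarith
      have h2 : x - 81 = 5 * (c:ℚ)^2 / (e:ℚ)^2 := by rw [hx]; field_simp; linarith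
      rw [h1, h2]; field_simp; norm_num
  · norm_num at hAq hBq
    refine ⟨c / b, 4 * e / b, 4 * a / b, ?_, ?_,
      div_ne_zero (mul_ne_zero (by norm_num) heq) hbq,
      div_ne_zero (mul_ne_zero (by norm_num) haq) hbq, Or.inr (Or.inr (Or.inr ?_))⟩
    · field_simp; linarith
    · field_simp; linarith
    · have h1 : x - 1 = -5 * (b:ℚ)^2 / (e:ℚ)^2 := by rw [hx]; field_simp; linarith
      have h2 : x - 81 = -5 * (c:ℚ)^2 / (e:ℚ)^2 := by rw [hx]; field_simp; linarith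
      rw [h1, h2]; field_simp

/-- Size bound used in the descent: if `u'^2 * q = p` with `|p| < 2|a|` and `|a| ≥ 2`, then the
numerator of `u'` is smaller than `|a|`. -/
lemma num_lt {u' : ℚ} {p q a : ℤ} (hp0 : p ≠ 0) (hp : p.natAbs < 2 * a.natAbs)
    (ha : 2 ≤ a.natAbs) (h : u'^2 * q = p) : u'.num.natAbs < a.natAbs := by
  have hd : (u'.den : ℚ) ≠ 0 := by exact_mod_cast u'.den_pos.ne'
  have h1 : (u'.num : ℚ)^2 * q = p * (u'.den : ℚ)^2 := by
    have hu : u' = (u'.num : ℚ) / u'.den := (Rat.num_div_den u').symm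
    rw [hu] at h
    field_simp at h
    linarith
  have h2 : u'.num^2 * q = p * (u'.den : ℤ)^2 := by exact_mod_cast h1
  have hcop : IsCoprime (u'.num^2) ((u'.den : ℤ)^2) := by
    apply IsCoprime.pow
    rw [Int.isCoprime_iff_gcd_eq_one]
    exact u'.reduced
  have hdvd : u'.num^2 ∣ p := hcop.dvd_of_dvd_mul_right ⟨q, h2.symm⟩
  have hle : (u'.num^2).natAbs ≤ p.natAbs :=
    Nat.le_of_dvd (Int.natAbs_pos.mpr hp0) (Int.natAbs_dvd_natAbs.mpr hdvd)
  rw [Int.natAbs_pow] at hle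
  by_contra hcon
  rw [not_lt] at hcon
  nlinarith

lemma descent_aux : ∀ n : ℕ, ∀ u v w : ℚ, u.num.natAbs ≤ n → u^2 - 1 = v^2 → u^2 - 81 = w^2 →
    v ≠ 0 → w ≠ 0 → False := by
  intro n
  induction n using Nat.strong_induction_on with
  | _ n ih =>
  intro u v w hun h1 h81 hv hw
  have huv : u + v ≠ 0 := by
    intro h0
    have h2 : (u + v) * (u - v) = 1 := by linear_combination h1
    rw [h0] at h2; simp at h2
  have huw : u + w ≠ 0 := by
    intro h0
    have h2 : (u + w) * (u - w) = 81 := by linear_combination h81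
    rw [h0] at h2; simp at h2
  have hvw : v + w ≠ 0 := by
    intro h0
    have h2 : (v + w) * (v - w) = 80 := by linear_combination h81 - h1
    rw [h0] at h2; simp at h2
  have hX1 : (u + v) * (u + w) - 1 = (u + v) * (v + w) := by linear_combination h1
  have hX81 : (u + v) * (u + w) - 81 = (u + w) * (v + w) := by linear_combination h81
  obtain ⟨u', v', w', h1', h81', hv', hw', hcase⟩ :=
    key (x := (u + v) * (u + w)) (y := (u + v) * (u + w) * (v + w))
      (mul_ne_zero (mul_ne_zero huv huw) hvw) (by rw [mul_assoc _ (_ - 1), hX1, hX81]; ring)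
  -- integer coordinates
  obtain ⟨a, d, hdpos, hu, ha⟩ : ∃ a d : ℤ, 0 < d ∧ u = (a : ℚ) / (d : ℚ) ∧ u.num = a :=
    ⟨u.num, u.den, by exact_mod_cast u.den_pos, (Rat.num_div_den u).symm, rfl⟩
  rw [ha] at hun
  clear ha
  have hd : (d : ℚ) ≠ 0 := by exact_mod_cast hdpos.ne'
  have hud : u * d = a := by rw [hu]; field_simp
  obtain ⟨b, hb⟩ := rat_int_of_sq (Y := v * d) (K := a^2 - d^2) (by
    push_cast; rw [← hud]; linear_combination (-(d : ℚ)^2) * h1)
  obtain ⟨c, hc⟩ := rat_int_of_sq (Y := w * d) (K := a^2 - 81 * d^2) (by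
    push_cast; rw [← hud]; linear_combination (-(d : ℚ)^2) * h81)
  have hvb : v = (b : ℚ) / d := by rw [eq_div_iff hd]; exact hb
  have hwc : w = (c : ℚ) / d := by rw [eq_div_iff hd]; exact hc
  have hrel1q : (a : ℚ)^2 - (d : ℚ)^2 = (b : ℚ)^2 := by
    rw [← hb, ← hud]; linear_combination ((d : ℚ)^2) * h1
  have hrel2q : (a : ℚ)^2 - 81 * (d : ℚ)^2 = (c : ℚ)^2 := by
    rw [← hc, ← hud]; linear_combination ((d : ℚ)^2) * h81
  have hrel1 : a^2 - d^2 = b^2 := by exact_mod_cast hrel1q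
  have hrel2 : a^2 - 81 * d^2 = c^2 := by exact_mod_cast hrel2q
  have hd2 : (1 : ℤ) ≤ d^2 := by nlinarith
  have ha2 : 2 ≤ a.natAbs := by
    have h4 : (2 : ℤ)^2 ≤ a^2 := by nlinarith [sq_nonneg c]
    have := Int.natAbs_le_iff_sq_le.mpr h4
    simpa using this
  have hca : c.natAbs < a.natAbs := by
    rw [Int.natAbs_lt_iff_sq_lt]; nlinarith
  have hpc : (a + c).natAbs < 2 * a.natAbs := by
    have := Int.natAbs_add_le a c; omega
  have hmc : (a - c).natAbs < 2 * a.natAbs := by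
    have := Int.natAbs_sub_le a c; omega
  have hpc0 : a + c ≠ 0 := by
    intro h0
    have : c = -a := by linarith
    rw [this] at hca; simp at hca
  have hmc0 : a - c ≠ 0 := by
    intro h0
    have : c = a := by linarith
    rw [this] at hca; simp at hca
  have hABp : ((a : ℚ) + b) ≠ 0 := by
    intro h0; apply huv; rw [hu, hvb, ← add_div, h0, zero_div]
  have hACp : ((a : ℚ) + c) ≠ 0 := by
    intro h0; apply huw; rw [hu, hwc, ← add_div, h0, zero_div]
  have hBCp : ((b : ℚ) + c) ≠ 0 := by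
    intro h0; apply hvw; rw [hvb, hwc, ← add_div, h0, zero_div]
  have key2 : u'.num.natAbs < a.natAbs := by
    rcases hcase with hc1 | hc2 | hc3 | hc4
    · refine num_lt (p := a + c) (q := a - b) hpc0 hpc ha2 ?_
      rw [hc1]; push_cast
      rw [hu, hvb, hwc]; field_simp
      linear_combination hrel1q
    · refine num_lt (p := a - c) (q := a + b) hmc0 hmc ha2 ?_
      rw [hc2]; push_cast
      rw [hu, hvb, hwc]; field_simp
      linear_combination (-1 : ℚ) * hrel2q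
    · refine num_lt (p := a - c) (q := a - b) hmc0 hmc ha2 ?_
      rw [hc3, hX1, hX81]; push_cast
      rw [hu, hvb, hwc]; field_simp
      linear_combination (81 : ℚ) * hrel1q - hrel2q
    · refine num_lt (p := a + c) (q := a + b) hpc0 hpc ha2 ?_
      rw [hc4, hX1, hX81]; push_cast
      rw [hu, hvb, hwc]; field_simp
  exact ih u'.num.natAbs (lt_of_lt_of_le key2 hun) u' v' w' le_rfl h1' h81' hv' hw'

end D

/-- **Chunk D of S51.**  The elliptic curve `y² = x (x - 1) (x - 81)` (conductor 15, isogenous to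
`X₀(15)`) has no rational points besides its 2-torsion. -/
theorem descent (x y : ℚ) (h : y^2 = x * (x - 1) * (x - 81)) : y = 0 := by
  by_contra hy
  obtain ⟨u, v, w, h1, h81, hv, hw, -⟩ := D.key hy h
  exact D.descent_aux _ u v w le_rfl h1 h81 hv hw

end Fermat.Agent.S51Lib
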