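/-
S51 support library (helper2): shared layer for chunks A and B.
* `fP`, `phi2`, `psi3`: the polynomials `ψ₂²`, `φ₂`, `ψ₃` in terms of the b-invariants;
  `dup`: duplication formula `x(2P) * ψ₂²(x) = φ₂(x)` for affine points.
* `card_le_of_x_roots`: counting points by their x-coordinates.
* `exists_generator`: a proper nonzero subspace of a small `𝔽_p`-space is a line.
* `fixed_rational`: Galois-fixed elements of `AlgebraicClosure ℚ` are rational.
-/
import Mathlib
import Fermat.Prelude.Def_FLTPrelim_GaloisRep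

set_option autoImplicit false

open WeierstrassCurve

namespace Fermat.Agent.S51Lib

section general

variable {F : Type*} [Field F] (E : WeierstrassCurve.Affine F)

/-- `ψ₂² = 4x³ + b₂x² + 2b₄x + b₆`. -/
def fP (x : F) : F := 4*x^3 + E.b₂*x^2 + 2*E.b₄*x + E.b₆

/-- numerator of the duplication formula. -/
def phi2 (x : F) : F := x^4 - E.b₄*x^2 - 2*E.b₆*x - E.b₈

/-- the 3-division polynomial. -/
def psi3 (x : F) : F := 3*x^4 + E.b₂*x^3 + 3*E.b₄*x^2 + 3*E.b₆*x + E.b₈

lemma fP_eq_sq {x y : F} (h : E.Equation x y) : fP E x = (y - E.negY x y)^2 := by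
  rw [Affine.equation_iff] at h
  simp only [fP, Affine.negY, WeierstrassCurve.b₂, WeierstrassCurve.b₄, WeierstrassCurve.b₆]
  linear_combination (-4 : F) * h

lemma psi3_eq (x : F) : psi3 E x = x * fP E x - phi2 E x := by
  simp only [psi3, fP, phi2]; ring

lemma delta_eq_zero_of_common_root [CharZero F] {x : F} (hf : fP E x = 0) (h3 : psi3 E x = 0) :
    E.Δ = 0 := by
  have h1 : (12*x^2 + 2*E.b₂*x + 2*E.b₄)^2 = 2 * fP E x * (24*x + 2*E.b₂) - 16 * psi3 E x := by
    simp only [fP, psi3]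
    linear_combination (4 : F) * E.b_relation
  rw [hf, h3] at h1
  have h2 : 12*x^2 + 2*E.b₂*x + 2*E.b₄ = 0 := by
    have : (12*x^2 + 2*E.b₂*x + 2*E.b₄)^2 = 0 := by rw [h1]; ring
    exact pow_eq_zero_iff (by norm_num) |>.mp this
  have h3' : ((24*E.b₂^2 - 288*(2*E.b₄))*x + 4*E.b₂^3 - 60*E.b₂*(2*E.b₄) + 432*E.b₆) * fP E x
      + ((96*(2*E.b₄) - 8*E.b₂^2)*x^2 + (28*E.b₂*(2*E.b₄) - 144*E.b₆ - 2*E.b₂^3)*x
        + 16*(2*E.b₄)^2 - E.b₂^2*(2*E.b₄) - 12*E.b₂*E.b₆) * (12*x^2 + 2*E.b₂*x + 2*E.b₄)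
      = -16 * E.Δ := by
    simp only [fP, WeierstrassCurve.Δ]
    linear_combination (-4 * E.b₂^2) * E.b_relation
  rw [hf, h2] at h3'
  have : (16 : F) * E.Δ = 0 := by linear_combination h3'
  simpa using this

lemma dup [DecidableEq F] {x y : F} (h : E.Nonsingular x y) (hy : y ≠ E.negY x y) :
    ∃ (x' y' : F) (h' : E.Nonsingular x' y'),
      Affine.Point.some x y h + Affine.Point.some x y h = Affine.Point.some x' y' h' ∧
        x' * fP E x = phi2 E x := by
  refine ⟨_, _, _, Affine.Point.add_self_of_Y_ne hy, ?_⟩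
  rw [Affine.slope_of_Y_ne rfl hy]
  have hD : y - E.negY x y ≠ 0 := sub_ne_zero.mpr hy
  rw [fP_eq_sq E h.1]
  simp only [Affine.addX]
  field_simp
  have heq := (Affine.equation_iff x y).mp h.1
  simp only [phi2, Affine.negY, WeierstrassCurve.b₄, WeierstrassCurve.b₆,
    WeierstrassCurve.b₈] at *
  linear_combination (-(E.a₁^2 + 4*E.a₂ + 8*x)) * heq

end general

section counting

variable {F : Type*} [Field F] [DecidableEq F] (E : WeierstrassCurve.Affine F)

/-- The `x`-coordinate of a point (junk value `0` at infinity). -/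
def xc : E.Point → F
  | .zero => 0
  | .some x _ _ => x

omit [DecidableEq F] in
@[simp] lemma xc_some {x y : F} (h : E.Nonsingular x y) : xc E (.some x y h) = x := rfl

/-- At most `2 deg p` affine points have their `x`-coordinate among the roots of `p ≠ 0`. -/
lemma card_le_of_x_roots (p : Polynomial F) (hp : p ≠ 0) (S : Finset E.Point)
    (hS : ∀ P ∈ S, ∃ (x y : F) (h : E.Nonsingular x y), P = .some x y h ∧ p.eval x = 0) :
    S.card ≤ 2 * p.natDegree := by
  classical
  have h1 : S.card ≤ 2 * (S.image (xc E)).card := by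
    apply Finset.card_le_mul_card_image
    intro a ha
    obtain ⟨P₀, hP₀, rfl⟩ := Finset.mem_image.mp ha
    have hsub : S.filter (fun P => xc E P = xc E P₀) ⊆ {P₀, -P₀} := by
      intro P hP
      rw [Finset.mem_filter] at hP
      obtain ⟨hPS, hx⟩ := hP
      obtain ⟨x, y, h, rfl, -⟩ := hS P hPS
      obtain ⟨x₀, y₀, h₀, rfl, -⟩ := hS P₀ hP₀
      simp only [xc_some] at hx
      rw [Finset.mem_insert, Finset.mem_singleton]
      exact Affine.Point.X_eq_iff.mp hx
    exact (Finset.card_le_card hsub).trans Finset.card_le_two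
  have h2 : (S.image (xc E)).card ≤ p.natDegree := by
    have hsub : S.image (xc E) ⊆ p.roots.toFinset := by
      intro a ha
      obtain ⟨P, hP, rfl⟩ := Finset.mem_image.mp ha
      obtain ⟨x, y, h, rfl, hx⟩ := hS P hP
      rw [Multiset.mem_toFinset, Polynomial.mem_roots hp]
      exact hx
    exact (Finset.card_le_card hsub).trans ((Multiset.toFinset_card_le _).trans (Polynomial.card_roots' p))
  omega

end counting

section linalg

/-- A proper nonzero subspace of a small `𝔽_p`-vector space is a line. -/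
lemma exists_generator {p : ℕ} [Fact p.Prime] {M : Type*} [AddCommGroup M] [Module (ZMod p) M]
    (B : ℕ) (hB : B + 1 < p^3) (hcard : ∀ T : Finset M, (∀ t ∈ T, t ≠ 0) → T.card ≤ B)
    (N : Submodule (ZMod p) M) (hbot : N ≠ ⊥) (htop : N ≠ ⊤) :
    ∃ P ∈ N, P ≠ 0 ∧ ∀ R ∈ N, ∃ c : ZMod p, R = c • P := by
  classical
  obtain ⟨P, hPN, hP0⟩ := (Submodule.ne_bot_iff N).mp hbot
  obtain ⟨Q, hQ⟩ : ∃ Q : M, Q ∉ N := by
    by_contra hcon
    push Not at hcon
    exact htop (Submodule.eq_top_iff'.mpr hcon)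
  refine ⟨P, hPN, hP0, ?_⟩
  intro R hRN
  by_contra hR
  push Not at hR
  let φ : ZMod p × ZMod p × ZMod p → M := fun c => c.1 • P + c.2.1 • R + c.2.2 • Q
  have hφ : Function.Injective φ := by
    rintro ⟨i, k, l⟩ ⟨i', k', l'⟩ h
    simp only [φ] at h
    have h0 : (i - i') • P + (k - k') • R + (l - l') • Q = 0 := by
      rw [sub_smul, sub_smul, sub_smul]
      rw [← sub_eq_zero] at h
      rw [← h]; abel
    have hl : l - l' = 0 := by
      by_contra hl
      apply hQ
      have : Q = (l - l')⁻¹ • (-((i - i') • P + (k - k') • R)) := by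
        rw [eq_inv_smul_iff₀ hl]
        rw [eq_neg_iff_add_eq_zero, add_comm]; exact h0
      rw [this]
      exact N.smul_mem _ (N.neg_mem (N.add_mem (N.smul_mem _ hPN) (N.smul_mem _ hRN)))
    rw [hl, zero_smul, add_zero] at h0
    have hk : k - k' = 0 := by
      by_contra hk
      apply hR (-(k - k')⁻¹ * (i - i'))
      rw [mul_smul, neg_smul, ← smul_neg, eq_inv_smul_iff₀ hk]
      rw [eq_neg_iff_add_eq_zero, add_comm]; exact h0
    rw [hk, zero_smul, add_zero] at h0
    have hi : i - i' = 0 := by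
      rcases smul_eq_zero.mp h0 with h | h
      · exact h
      · exact absurd h hP0
    rw [sub_eq_zero] at hi hk hl
    rw [hi, hk, hl]
  have hcardφ : (Finset.univ.image φ).card = p^3 := by
    rw [Finset.card_image_of_injective _ hφ, Finset.card_univ]
    simp [ZMod.card]; ring
  have h1 := hcard ((Finset.univ.image φ).erase 0) (fun t ht => Finset.ne_of_mem_erase ht)
  have h2 := Finset.pred_card_le_card_erase (s := Finset.univ.image φ) (a := (0 : M))
  omega

end linalg

section galois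

open WeierstrassCurve.Affine

local notation "Kb" => AlgebraicClosure ℚ

lemma fixed_rational (x : Kb) (h : ∀ σ : Kb ≃ₐ[ℚ] Kb, σ x = x) :
    ∃ q : ℚ, algebraMap ℚ Kb q = x := by
  have hgal : IsGalois ℚ Kb := by
    have e : (DivisionRing.toRatAlgebra : Algebra ℚ Kb) = AlgebraicClosure.instAlgebra ℚ :=
      Subsingleton.elim _ _
    rw [e]
    exact isGalois_iff.mpr ⟨inferInstance, inferInstance⟩
  exact (InfiniteGalois.mem_range_algebraMap_iff_fixed (k := ℚ) (K := Kb) x).mpr h

variable (W' : WeierstrassCurve.Affine ℚ)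

lemma baseChange_b₂ : (W'⁄Kb).b₂ = algebraMap ℚ Kb W'.b₂ := WeierstrassCurve.map_b₂ ..
lemma baseChange_b₄ : (W'⁄Kb).b₄ = algebraMap ℚ Kb W'.b₄ := WeierstrassCurve.map_b₄ ..
lemma baseChange_b₆ : (W'⁄Kb).b₆ = algebraMap ℚ Kb W'.b₆ := WeierstrassCurve.map_b₆ ..
lemma baseChange_b₈ : (W'⁄Kb).b₈ = algebraMap ℚ Kb W'.b₈ := WeierstrassCurve.map_b₈ ..
lemma baseChange_Δ : (W'⁄Kb).Δ = algebraMap ℚ Kb W'.Δ := WeierstrassCurve.map_Δ ..

lemma baseChange_Δ_ne_zero (hΔ : W'.Δ ≠ 0) : (W'⁄Kb).Δ ≠ 0 := by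
  rw [baseChange_Δ]
  exact (map_ne_zero_iff _ (algebraMap ℚ Kb).injective).mpr hΔ

end galois

end Fermat.Agent.S51Lib
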