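/-
S51 chunk A (helper5): if the mod-`3` representation of `W` is not irreducible, then the
`3`-division polynomial has a rational root.
-/
import Mathlib
import Fermat.Agent.Lib.S51.Common

set_option autoImplicit false

open WeierstrassCurve WeierstrassCurve.Affine

noncomputable section

namespace Fermat.Agent.LibS51

local notation "Qbar" => AlgebraicClosure ℚ
local notation "GQ" => (AlgebraicClosure ℚ ≃ₐ[ℚ] AlgebraicClosure ℚ)

section BaseChange

variable (E : WeierstrassCurve.Affine ℚ)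

theorem psi3_baseChange (x : ℚ) :
    psi3 (E⁄Qbar) (algebraMap ℚ Qbar x) = algebraMap ℚ Qbar (psi3 E x) := by
  simp only [psi3, Affine.baseChange, WeierstrassCurve.baseChange, WeierstrassCurve.map_b₂,
    WeierstrassCurve.map_b₄, WeierstrassCurve.map_b₆, WeierstrassCurve.map_b₈]
  simp only [map_add, map_mul, map_pow, map_ofNat]

theorem eval_Ψ₃ {F : Type*} [Field F] (E' : WeierstrassCurve.Affine F) (x : F) :
    (WeierstrassCurve.Ψ₃ E').eval x = psi3 E' x := by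
  simp [WeierstrassCurve.Ψ₃, psi3]

theorem Δ_baseChange_ne_zero (hΔ : E.Δ ≠ 0) : (E⁄Qbar).Δ ≠ 0 := by
  simp only [Affine.baseChange, WeierstrassCurve.baseChange, WeierstrassCurve.map_Δ]
  exact (map_ne_zero_iff _ (algebraMap ℚ Qbar).injective).mpr hΔ

end BaseChange

section Torsion

variable {F : Type*} [Field F] [DecidableEq F] {E : WeierstrassCurve.Affine F}

theorem natCast_three_zsmul (P : E.Point) : ((3 : ℕ) : ℤ) • P = P + P + P := by
  rw [natCast_zsmul, succ_nsmul, two_nsmul]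

theorem mem_torsion_three_iff (P : E.Point) :
    P ∈ Submodule.torsionBy ℤ E.Point ((3 : ℕ) : ℤ) ↔ P + P + P = 0 := by
  rw [Submodule.mem_torsionBy_iff, natCast_three_zsmul]

/-- The `3`-torsion has at most `9` points. -/
theorem torsion_three_finite_card [CharZero F] :
    (↑(Submodule.torsionBy ℤ E.Point ((3 : ℕ) : ℤ)) : Set E.Point).Finite ∧
      (↑(Submodule.torsionBy ℤ E.Point ((3 : ℕ) : ℤ)) : Set E.Point).ncard ≤ 9 := by
  have h3 : (3 : F) ≠ 0 := by norm_num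
  have hq : WeierstrassCurve.Ψ₃ E ≠ 0 := WeierstrassCurve.Ψ₃_ne_zero E h3
  have hdeg : (WeierstrassCurve.Ψ₃ E).natDegree ≤ 4 := WeierstrassCurve.natDegree_Ψ₃_le E
  obtain ⟨hfin, hcard⟩ := finite_and_ncard_le_of_roots (E := E) (WeierstrassCurve.Ψ₃ E) hq
    (↑(Submodule.torsionBy ℤ E.Point ((3 : ℕ) : ℤ)) : Set E.Point) (by
      intro P hP hP0
      rw [SetLike.mem_coe, mem_torsion_three_iff] at hP
      cases P with
      | zero => exact absurd rfl hP0
      | some x y h =>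
        rw [eval_Ψ₃, xc_some]
        exact psi3_eq_zero_of_three h hP)
  exact ⟨hfin, hcard.trans (by omega)⟩

end Torsion

/-- Chunk A in terms of the curve over `ℚ`. -/
theorem exists_root_psi3 (E : WeierstrassCurve.Affine ℚ) (hΔ : E.Δ ≠ 0)
    (h : ¬ Point.GaloisRepIsIrreducible (K := Qbar) ℚ E 3) : ∃ x3 : ℚ, psi3 E x3 = 0 := by
  by_contra hno
  apply h
  have hΔ' := Δ_baseChange_ne_zero E hΔ
  refine ⟨?_, ?_⟩
  · -- a point of order `3`
    have h3 : (3 : Qbar) ≠ 0 := by norm_num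
    have hdeg : (WeierstrassCurve.Ψ₃ (E⁄Qbar)).degree ≠ 0 := by
      rw [Polynomial.degree_eq_natDegree (WeierstrassCurve.Ψ₃_ne_zero _ h3),
        WeierstrassCurve.natDegree_Ψ₃ _ h3]
      norm_num
    obtain ⟨x₀, hx₀⟩ := IsAlgClosed.exists_root (WeierstrassCurve.Ψ₃ (E⁄Qbar)) hdeg
    rw [Polynomial.IsRoot, eval_Ψ₃] at hx₀
    obtain ⟨s, hs⟩ := IsAlgClosed.exists_pow_nat_eq (fP (E⁄Qbar) x₀) (n := 2) (by norm_num)
    set y₀ : Qbar := (s - (E⁄Qbar).a₁ * x₀ - (E⁄Qbar).a₃) / 2 with hy₀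
    have heq : (E⁄Qbar).Equation x₀ y₀ := by
      rw [Affine.equation_iff]
      have h2y : 2 * y₀ + (E⁄Qbar).a₁ * x₀ + (E⁄Qbar).a₃ = s := by
        rw [hy₀]; ring
      have hs' : (2 * y₀ + (E⁄Qbar).a₁ * x₀ + (E⁄Qbar).a₃) ^ 2 = fP (E⁄Qbar) x₀ := by
        rw [h2y, hs]
      simp only [fP, WeierstrassCurve.b₂, WeierstrassCurve.b₄, WeierstrassCurve.b₆] at hs'
      have h4 : (4 : Qbar) ≠ 0 := by norm_num
      apply mul_left_cancel₀ h4
      linear_combination hs'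
    have hns : (E⁄Qbar).Nonsingular x₀ y₀ :=
      (Affine.equation_iff_nonsingular_of_Δ_ne_zero hΔ').mp heq
    have hy : y₀ ≠ (E⁄Qbar).negY x₀ y₀ := ne_negY_of_psi3 hns hx₀
    have h3t := three_of_psi3 hns hx₀ hy
    have hmem : Point.some x₀ y₀ hns ∈
        Submodule.torsionBy ℤ (E⁄Qbar).Point ((3 : ℕ) : ℤ) :=
      (mem_torsion_three_iff _).mpr h3t
    refine nontrivial_of_ne (⟨_, hmem⟩ : Submodule.torsionBy ℤ (E⁄Qbar).Point ((3 : ℕ) : ℤ)) 0 ?_
    intro h0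
    exact Point.some_ne_zero hns (congrArg Subtype.val h0)
  · intro N hN
    by_contra hN'
    rw [not_or] at hN'
    obtain ⟨hfin, hcard⟩ := torsion_three_finite_card (E := (E⁄Qbar))
    have : Finite (Submodule.torsionBy ℤ (E⁄Qbar).Point ((3 : ℕ) : ℤ)) := hfin
    have hcard' : Nat.card (Submodule.torsionBy ℤ (E⁄Qbar).Point ((3 : ℕ) : ℤ)) < 3 ^ 3 := by
      have : Nat.card (Submodule.torsionBy ℤ (E⁄Qbar).Point ((3 : ℕ) : ℤ)) =
          (↑(Submodule.torsionBy ℤ (E⁄Qbar).Point ((3 : ℕ) : ℤ)) : Set (E⁄Qbar).Point).ncard :=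
        rfl
      rw [this]
      omega
    have : Fact (Nat.Prime 3) := ⟨by norm_num⟩
    obtain ⟨P, hPN, hP0, hgen⟩ := exists_generator_of_proper hcard' N hN'.1 hN'.2
    -- the underlying point
    have hP3 : (P : (E⁄Qbar).Point) + P + P = 0 := (mem_torsion_three_iff _).mp P.2
    have hP0' : (P : (E⁄Qbar).Point) ≠ 0 := fun h0 => hP0 (Subtype.ext h0)
    have hfix : ∀ σ : GQ, σ (xc (P : (E⁄Qbar).Point)) = xc (P : (E⁄Qbar).Point) := by
      intro σ
      obtain ⟨c, hc⟩ := hgen _ (hN σ P hPN)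
      have hc' : σ • (P : (E⁄Qbar).Point) = c.val • (P : (E⁄Qbar).Point) := by
        have h1 : c • P = c.val • P := by
          conv_lhs => rw [← ZMod.natCast_zmod_val c]
          exact Nat.cast_smul_eq_nsmul (ZMod 3) c.val P
        have h2 := congrArg (fun Q : Submodule.torsionBy ℤ (E⁄Qbar).Point ((3 : ℕ) : ℤ) =>
          (Q : (E⁄Qbar).Point)) (hc.trans h1)
        exact h2
      rw [← xc_smul]
      have hne : σ • (P : (E⁄Qbar).Point) ≠ 0 := fun h0 => hP0' ((smul_eq_zero_iff E σ _).mp h0)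
      have hval : c.val = 0 ∨ c.val = 1 ∨ c.val = 2 := by
        have := ZMod.val_lt c
        omega
      rcases hval with h0 | h1 | h2
      · rw [hc', h0, zero_nsmul] at hne
        exact absurd rfl hne
      · rw [hc', h1, one_nsmul]
      · rw [hc', h2, two_nsmul, eq_neg_of_add_eq_zero_left hP3, xc_neg]
    obtain ⟨q, hq⟩ := exists_rat_of_fixed _ hfix
    apply hno
    refine ⟨q, ?_⟩
    have hψ : psi3 (E⁄Qbar) (xc (P : (E⁄Qbar).Point)) = 0 := by
      rcases hPt : (P : (E⁄Qbar).Point) with _ | ⟨x, y, hxy⟩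
      · exact absurd hPt hP0'
      · rw [hPt] at hP3
        exact psi3_eq_zero_of_three hxy hP3
    rw [← hq, psi3_baseChange] at hψ
    exact (map_eq_zero_iff _ (algebraMap ℚ Qbar).injective).mp hψ

/-- Chunk A of the S51 plan. -/
theorem three_data (W : WeierstrassCurve ℤ) (hΔ : W.Δ ≠ 0) (h : ¬ W.ModRepIsIrreducible 3) :
    ∃ x3 : ℚ, 3 * x3 ^ 4 + (W.b₂ : ℚ) * x3 ^ 3 + 3 * (W.b₄ : ℚ) * x3 ^ 2 + 3 * (W.b₆ : ℚ) * x3 +
      (W.b₈ : ℚ) = 0 := by
  have hΔ' : (W.map (Int.castRingHom ℚ)).Δ ≠ 0 := by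
    rw [WeierstrassCurve.map_Δ]
    exact (map_ne_zero_iff _ (Int.cast_injective (α := ℚ))).mpr hΔ
  obtain ⟨x3, hx3⟩ := exists_root_psi3 (W.map (Int.castRingHom ℚ)) hΔ' h
  refine ⟨x3, ?_⟩
  simp only [psi3, WeierstrassCurve.map_b₂, WeierstrassCurve.map_b₄, WeierstrassCurve.map_b₆,
    WeierstrassCurve.map_b₈, eq_intCast] at hx3
  exact hx3

end Fermat.Agent.LibS51

end
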