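import Mathlib
import Fermat.Agent.Lib.S51.Common
import Fermat.Agent.Lib.S51.ThreeData

set_option autoImplicit false

open WeierstrassCurve WeierstrassCurve.Affine

noncomputable section

namespace Fermat.Agent.LibS51

section Formulas5

variable {F : Type*} [Field F] (E : WeierstrassCurve.Affine F)

/-- The auxiliary `4`-division polynomial `preΨ₄` as a function. -/
def pre4 (x : F) : F :=
  2 * x ^ 6 + E.b₂ * x ^ 5 + 5 * E.b₄ * x ^ 4 + 10 * E.b₆ * x ^ 3 + 10 * E.b₈ * x ^ 2 +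
    (E.b₂ * E.b₈ - E.b₄ * E.b₆) * x + (E.b₄ * E.b₈ - E.b₆ ^ 2)

/-- The `5`-division polynomial as a function. -/
def psi5 (x : F) : F := pre4 E x * fP E x ^ 2 - psi3 E x ^ 3

theorem dup_fP (x : F) :
    4 * phi2 E x ^ 3 + E.b₂ * phi2 E x ^ 2 * fP E x + 2 * E.b₄ * phi2 E x * fP E x ^ 2 +
      E.b₆ * fP E x ^ 3 = pre4 E x ^ 2 := by
  simp only [phi2, fP, pre4]
  linear_combination ((-13) * x ^ 8 + (-8) * x ^ 7 * E.b₂ + (-1) * x ^ 6 * E.b₂ ^ 2 + (-28) * x ^ 6 * E.b₄ + (-6) * x ^ 5 * E.b₂ * E.b₄ + (-38) * x ^ 5 * E.b₆ + (-7) * x ^ 4 * E.b₂ * E.b₆ + (-8) * x ^ 4 * E.b₄ ^ 2 + (-22) * x ^ 4 * E.b₈ + (-4) * x ^ 3 * E.b₂ * E.b₈ + (-16) * x ^ 3 * E.b₄ * E.b₆ + (-8) * x ^ 2 * E.b₄ * E.b₈ + (-7) * x ^ 2 * E.b₆ ^ 2 + (-6) * x * E.b₆ * E.b₈ + (-1) * E.b₈ ^ 2) * E.b_relation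

theorem dup_dup (x : F) :
    phi2 E x ^ 4 - E.b₄ * phi2 E x ^ 2 * fP E x ^ 2 - 2 * E.b₆ * phi2 E x * fP E x ^ 3 -
      E.b₈ * fP E x ^ 4 - x * fP E x * pre4 E x ^ 2 = -(psi3 E x * psi5 E x) := by
  simp only [phi2, fP, pre4, psi3, psi5]
  linear_combination ((-4) * x ^ 12 + (-5) * x ^ 11 * E.b₂ + (-1) * x ^ 10 * E.b₂ ^ 2 + (-42) * x ^ 10 * E.b₄ + (-16) * x ^ 9 * E.b₂ * E.b₄ + (-93) * x ^ 9 * E.b₆ + (-1) * x ^ 8 * E.b₂ ^ 2 * E.b₄ + (-36) * x ^ 8 * E.b₂ * E.b₆ + (-28) * x ^ 8 * E.b₄ ^ 2 + (-72) * x ^ 8 * E.b₈ + (-3) * x ^ 7 * E.b₂ ^ 2 * E.b₆ + (-4) * x ^ 7 * E.b₂ * E.b₄ ^ 2 + (-30) * x ^ 7 * E.b₂ * E.b₈ + (-84) * x ^ 7 * E.b₄ * E.b₆ + (-3) * x ^ 6 * E.b₂ ^ 2 * E.b₈ + (-14) * x ^ 6 * E.b₂ * E.b₄ * E.b₆ + (-4) * x ^ 6 * E.b₄ ^ 3 + (-60) * x ^ 6 * E.b₄ * E.b₈ + (-39) * x ^ 6 * E.b₆ ^ 2 + (-12) * x ^ 5 * E.b₂ * E.b₄ * E.b₈ + (-7) * x ^ 5 * E.b₂ * E.b₆ ^ 2 + (-16) * x ^ 5 * E.b₄ ^ 2 * E.b₆ + (-38) * x ^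 5 * E.b₆ * E.b₈ + (-8) * x ^ 4 * E.b₂ * E.b₆ * E.b₈ + (-12) * x ^ 4 * E.b₄ ^ 2 * E.b₈ + (-15) * x ^ 4 * E.b₄ * E.b₆ ^ 2 + (-4) * x ^ 4 * E.b₈ ^ 2 + (-1) * x ^ 3 * E.b₂ * E.b₈ ^ 2 + (-16) * x ^ 3 * E.b₄ * E.b₆ * E.b₈ + (-4) * x ^ 3 * E.b₆ ^ 3 + (-2) * x ^ 2 * E.b₄ * E.b₈ ^ 2 + (-5) * x ^ 2 * E.b₆ ^ 2 * E.b₈ + (-1) * x * E.b₆ * E.b₈ ^ 2) * E.b_relation

variable {E}

/-- If `x₂` is the `x`-coordinate of the double, then `f(x₂) f(x)³ = preΨ₄(x)²`. -/
theorem fP_dup {x x₂ : F} (h : x₂ * fP E x = phi2 E x) :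
    fP E x₂ * fP E x ^ 3 = pre4 E x ^ 2 := by
  rw [← dup_fP, ← h]
  simp only [fP]
  ring

/-- If `x₂` is the `x`-coordinate of the double, then the defect of the second duplication
relation is `ψ₃ ψ₅`. -/
theorem phi2_dup {x x₂ : F} (h : x₂ * fP E x = phi2 E x) :
    (x * fP E x₂ - phi2 E x₂) * fP E x ^ 4 = psi3 E x * psi5 E x := by
  have h1 := dup_dup E x
  have h2 := fP_dup h
  rw [← h] at h1
  have h3 : phi2 E x₂ * fP E x ^ 4 = (x₂ * fP E x) ^ 4 - E.b₄ * (x₂ * fP E x) ^ 2 * fP E x ^ 2 -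
      2 * E.b₆ * (x₂ * fP E x) * fP E x ^ 3 - E.b₈ * fP E x ^ 4 := by
    simp only [phi2]
    ring
  linear_combination (-1 : F) * h1 - h3 + x * fP E x * h2

theorem eval_preΨ'_five (x : F) : (WeierstrassCurve.preΨ' E 5).eval x = psi5 E x := by
  have h : WeierstrassCurve.preΨ' E 5 =
      WeierstrassCurve.preΨ₄ E * WeierstrassCurve.Ψ₂Sq E ^ 2 - WeierstrassCurve.Ψ₃ E ^ 3 := by
    rw [show 5 = 2 * (0 + 2) + 1 by rfl, WeierstrassCurve.preΨ'_odd]
    simp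
  rw [h]
  simp [WeierstrassCurve.preΨ₄, WeierstrassCurve.Ψ₂Sq, WeierstrassCurve.Ψ₃, psi5, pre4, fP, psi3]

end Formulas5

section Points5

variable {F : Type*} [Field F] [DecidableEq F] {E : WeierstrassCurve.Affine F}

/-- The relations satisfied by the `x`-coordinates of a nonzero `5`-torsion point and of its
double. -/
theorem five_rel {P : E.Point} (hP : P ≠ 0) (h5 : (5 : ℕ) • P = 0) :
    P + P ≠ 0 ∧ xc (P + P) ≠ xc P ∧ xc (P + P) * fP E (xc P) = phi2 E (xc P) ∧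
      xc P * fP E (xc (P + P)) = phi2 E (xc (P + P)) := by
  cases P with
  | zero => exact absurd rfl hP
  | some x y h =>
    have hy : y ≠ E.negY x y := by
      intro hy
      have h2 : Point.some x y h + Point.some x y h = 0 := Point.add_self_of_Y_eq hy
      have h5' : (5 : ℕ) • Point.some x y h =
          (Point.some x y h + Point.some x y h) + (Point.some x y h + Point.some x y h) +
            Point.some x y h := by abel
      rw [h5', h2, zero_add, zero_add] at h5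
      exact hP h5
    obtain ⟨hne, hx⟩ := xc_add_self h hy
    rw [xc_some]
    refine ⟨hne, ?_, hx, ?_⟩
    · intro hxx
      rcases eq_or_eq_neg_of_xc_eq hne hP (by rw [xc_some]; exact hxx) with h1 | h1
      · exact hP (add_eq_left.mp h1)
      · have h3 : (3 : ℕ) • Point.some x y h = 0 := by
          have : (3 : ℕ) • Point.some x y h =
              (Point.some x y h + Point.some x y h) + Point.some x y h := by abel
          rw [this, h1, neg_add_cancel]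
        have h2 : Point.some x y h + Point.some x y h = 0 := by
          have : Point.some x y h + Point.some x y h =
              (5 : ℕ) • Point.some x y h - (3 : ℕ) • Point.some x y h := by abel
          rw [this, h5, h3, sub_zero]
        exact hne h2
    · rcases hQ : Point.some x y h + Point.some x y h with _ | ⟨x₂, y₂, h₂⟩
      · exact absurd hQ hne
      · rw [xc_some]
        have hy₂ : y₂ ≠ E.negY x₂ y₂ := by
          intro hy₂
          have h4 : Point.some x₂ y₂ h₂ + Point.some x₂ y₂ h₂ = 0 := Point.add_self_of_Y_eq hy₂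
          rw [← hQ] at h4
          have : Point.some x y h = (5 : ℕ) • Point.some x y h -
              ((Point.some x y h + Point.some x y h) +
                (Point.some x y h + Point.some x y h)) := by abel
          rw [h5, h4, sub_zero] at this
          exact hP this
        obtain ⟨-, hx₂⟩ := xc_add_self h₂ hy₂
        have h4 : Point.some x₂ y₂ h₂ + Point.some x₂ y₂ h₂ = -Point.some x y h := by
          rw [← hQ, eq_neg_iff_add_eq_zero, ← h5]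
          abel
        rw [h4, xc_neg, xc_some] at hx₂
        exact hx₂

/-- The `x`-coordinate of a nonzero `5`-torsion point is a root of `ψ₃ ψ₅`. -/
theorem psi3_mul_psi5_of_five {P : E.Point} (hP : P ≠ 0) (h5 : (5 : ℕ) • P = 0) :
    psi3 E (xc P) * psi5 E (xc P) = 0 := by
  obtain ⟨-, -, h1, h2⟩ := five_rel hP h5
  rw [← phi2_dup h1, h2, sub_self, zero_mul]

theorem mem_torsion_five_iff (P : E.Point) :
    P ∈ Submodule.torsionBy ℤ E.Point ((5 : ℕ) : ℤ) ↔ (5 : ℕ) • P = 0 := by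
  rw [Submodule.mem_torsionBy_iff, natCast_zsmul]

/-- The `5`-torsion has at most `33` points. -/
theorem torsion_five_finite_card [CharZero F] :
    (↑(Submodule.torsionBy ℤ E.Point ((5 : ℕ) : ℤ)) : Set E.Point).Finite ∧
      (↑(Submodule.torsionBy ℤ E.Point ((5 : ℕ) : ℤ)) : Set E.Point).ncard ≤ 33 := by
  have h3 : (3 : F) ≠ 0 := by norm_num
  have h5 : ((5 : ℕ) : F) ≠ 0 := by norm_num
  have hq : WeierstrassCurve.Ψ₃ E * WeierstrassCurve.preΨ' E 5 ≠ 0 :=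
    mul_ne_zero (WeierstrassCurve.Ψ₃_ne_zero E h3) (WeierstrassCurve.preΨ'_ne_zero E h5)
  have hdeg : (WeierstrassCurve.Ψ₃ E * WeierstrassCurve.preΨ' E 5).natDegree ≤ 16 := by
    refine Polynomial.natDegree_mul_le.trans ?_
    have h1 := WeierstrassCurve.natDegree_Ψ₃_le E
    have h2 := WeierstrassCurve.natDegree_preΨ'_le E 5
    have h3 : (5 ^ 2 - if Even 5 then 4 else 1) / 2 = 12 := by decide
    rw [h3] at h2
    omega
  obtain ⟨hfin, hcard⟩ := finite_and_ncard_le_of_roots (E := E)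
    (WeierstrassCurve.Ψ₃ E * WeierstrassCurve.preΨ' E 5) hq
    (↑(Submodule.torsionBy ℤ E.Point ((5 : ℕ) : ℤ)) : Set E.Point) (by
      intro P hP hP0
      rw [SetLike.mem_coe, mem_torsion_five_iff] at hP
      rw [Polynomial.eval_mul, eval_Ψ₃, eval_preΨ'_five]
      exact psi3_mul_psi5_of_five hP0 hP)
  exact ⟨hfin, hcard.trans (by omega)⟩

end Points5

section Existence

variable {F : Type*} [Field F] [DecidableEq F] {E : WeierstrassCurve.Affine F}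

/-- Over an algebraically closed field of characteristic zero, an elliptic curve has a nonzero
`5`-torsion point. -/
theorem exists_five_torsion [IsAlgClosed F] [CharZero F] (hΔ : E.Δ ≠ 0) :
    ∃ P : E.Point, P ≠ 0 ∧ (5 : ℕ) • P = 0 := by
  have h5 : ((5 : ℕ) : F) ≠ 0 := by norm_num
  have hdeg : (WeierstrassCurve.preΨ' E 5).degree ≠ 0 := by
    rw [Polynomial.degree_eq_natDegree (WeierstrassCurve.preΨ'_ne_zero E h5),
      WeierstrassCurve.natDegree_preΨ' E h5]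
    have h3 : (5 ^ 2 - if Even 5 then 4 else 1) / 2 = 12 := by decide
    rw [h3]
    norm_num
  obtain ⟨x₀, hx₀⟩ := IsAlgClosed.exists_root (WeierstrassCurve.preΨ' E 5) hdeg
  rw [Polynomial.IsRoot, eval_preΨ'_five] at hx₀
  obtain ⟨s, hs⟩ := IsAlgClosed.exists_pow_nat_eq (fP E x₀) (n := 2) (by norm_num)
  set y₀ : F := (s - E.a₁ * x₀ - E.a₃) / 2 with hy₀
  have heq : E.Equation x₀ y₀ := by
    rw [Affine.equation_iff]
    have h2y : 2 * y₀ + E.a₁ * x₀ + E.a₃ = s := by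
      rw [hy₀]; ring
    have hs' : (2 * y₀ + E.a₁ * x₀ + E.a₃) ^ 2 = fP E x₀ := by
      rw [h2y, hs]
    simp only [fP, WeierstrassCurve.b₂, WeierstrassCurve.b₄, WeierstrassCurve.b₆] at hs'
    have h4 : (4 : F) ≠ 0 := by norm_num
    apply mul_left_cancel₀ h4
    linear_combination hs'
  have hns : E.Nonsingular x₀ y₀ :=
    (Affine.equation_iff_nonsingular_of_Δ_ne_zero hΔ).mp heq
  -- `f(x₀) ≠ 0`
  have hf : fP E x₀ ≠ 0 := by
    intro hf
    have hψ : psi3 E x₀ = 0 := by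
      have : psi3 E x₀ ^ 3 = 0 := by
        have h1 : psi5 E x₀ = pre4 E x₀ * fP E x₀ ^ 2 - psi3 E x₀ ^ 3 := rfl
        rw [hx₀, hf] at h1
        linear_combination h1
      exact pow_eq_zero_iff (by norm_num) |>.mp this
    exact fP_ne_zero heq (ne_negY_of_psi3 hns hψ) hf
  have hy : y₀ ≠ E.negY x₀ y₀ := by
    intro hy
    apply hf
    rw [← sq_sub_negY heq, sub_eq_zero.mpr hy]
    ring
  -- `ψ₃(x₀) ≠ 0`
  have hψ : psi3 E x₀ ≠ 0 := by
    intro hψ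
    have h1 : psi5 E x₀ = pre4 E x₀ * fP E x₀ ^ 2 - psi3 E x₀ ^ 3 := rfl
    rw [hx₀, hψ] at h1
    have h2 : pre4 E x₀ = 0 := by
      have : pre4 E x₀ * fP E x₀ ^ 2 = 0 := by linear_combination -h1
      rcases mul_eq_zero.mp this with h | h
      · exact h
      · exact absurd (pow_eq_zero_iff (by norm_num) |>.mp h) hf
    have h3 := dup_fP E x₀
    have h4 : phi2 E x₀ = x₀ * fP E x₀ := by rw [phi2_eq, hψ, sub_zero]
    rw [h2, h4] at h3
    have h5 : fP E x₀ ^ 4 = 0 := by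
      have : fP E x₀ ^ 4 = 4 * (x₀ * fP E x₀) ^ 3 + E.b₂ * (x₀ * fP E x₀) ^ 2 * fP E x₀ +
          2 * E.b₄ * (x₀ * fP E x₀) * fP E x₀ ^ 2 + E.b₆ * fP E x₀ ^ 3 := by
        simp only [fP]
        ring
      rw [this, h3]
      ring
    exact hf (pow_eq_zero_iff (by norm_num) |>.mp h5)
  have hpre : pre4 E x₀ ≠ 0 := by
    intro hpre
    have h1 : psi5 E x₀ = pre4 E x₀ * fP E x₀ ^ 2 - psi3 E x₀ ^ 3 := rfl
    rw [hx₀, hpre] at h1
    have : psi3 E x₀ ^ 3 = 0 := by linear_combination h1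
    exact hψ (pow_eq_zero_iff (by norm_num) |>.mp this)
  refine ⟨Point.some x₀ y₀ hns, Point.some_ne_zero hns, ?_⟩
  obtain ⟨hne, hx⟩ := xc_add_self hns hy
  rcases hQ : Point.some x₀ y₀ hns + Point.some x₀ y₀ hns with _ | ⟨x₂, y₂, h₂⟩
  · exact absurd hQ hne
  · rw [hQ, xc_some] at hx
    have hf₂ : fP E x₂ ≠ 0 := by
      intro hf₂
      have h1 := fP_dup hx
      rw [hf₂, zero_mul] at h1
      exact hpre (pow_eq_zero_iff (by norm_num) |>.mp h1.symm)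
    have hy₂ : y₂ ≠ E.negY x₂ y₂ := by
      intro hy₂
      apply hf₂
      rw [← sq_sub_negY h₂.1, sub_eq_zero.mpr hy₂]
      ring
    obtain ⟨hne₂, hx₂⟩ := xc_add_self h₂ hy₂
    have h1 := phi2_dup hx
    rw [hx₀, mul_zero] at h1
    have h2 : x₀ * fP E x₂ = phi2 E x₂ := by
      rcases mul_eq_zero.mp h1 with h | h
      · exact sub_eq_zero.mp h
      · exact absurd (pow_eq_zero_iff (by norm_num) |>.mp h) hf
    have h3 : xc (Point.some x₂ y₂ h₂ + Point.some x₂ y₂ h₂) = xc (Point.some x₀ y₀ hns) := by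
      rw [xc_some]
      exact mul_right_cancel₀ hf₂ (hx₂.trans h2.symm)
    rcases eq_or_eq_neg_of_xc_eq hne₂ (Point.some_ne_zero hns) h3 with h4 | h4
    · exfalso
      apply hψ
      apply psi3_eq_zero_of_three hns
      rw [← hQ] at h4
      have : Point.some x₀ y₀ hns + Point.some x₀ y₀ hns + Point.some x₀ y₀ hns =
          ((Point.some x₀ y₀ hns + Point.some x₀ y₀ hns) +
            (Point.some x₀ y₀ hns + Point.some x₀ y₀ hns)) - Point.some x₀ y₀ hns := by abel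
      rw [this, h4, sub_self]
    · rw [← hQ] at h4
      have : (5 : ℕ) • Point.some x₀ y₀ hns =
          ((Point.some x₀ y₀ hns + Point.some x₀ y₀ hns) +
            (Point.some x₀ y₀ hns + Point.some x₀ y₀ hns)) + Point.some x₀ y₀ hns := by abel
      rw [this, h4, neg_add_cancel]

end Existence

section Symmetric

variable {F : Type*} [Field F] (E : WeierstrassCurve.Affine F)

/-- The relation (5a) in the elementary symmetric functions of `x(P), x(2P)`. -/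
def rel5a (e1 e2 : F) : F := e1 ^ 3 - 6 * e1 * e2 - E.b₂ * e2 - E.b₄ * e1 - E.b₆

/-- The relation (5b) in the elementary symmetric functions of `x(P), x(2P)`. -/
def rel5b (e1 e2 : F) : F :=
  e1 ^ 4 - 8 * e1 ^ 2 * e2 + 10 * e2 ^ 2 - E.b₂ * e1 * e2 - E.b₄ * (e1 ^ 2 + 2 * e2) -
    3 * E.b₆ * e1 - 2 * E.b₈

variable {E}

theorem rel5a_of_rel {x₁ x₂ : F} (hne : x₂ ≠ x₁) (h1 : x₂ * fP E x₁ = phi2 E x₁)
    (h2 : x₁ * fP E x₂ = phi2 E x₂) : rel5a E (x₁ + x₂) (x₁ * x₂) = 0 := by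
  have h : (x₁ - x₂) * rel5a E (x₁ + x₂) (x₁ * x₂) = 0 := by
    simp only [rel5a, fP, phi2] at *
    linear_combination h2 - h1
  rcases mul_eq_zero.mp h with h | h
  · exact absurd (sub_eq_zero.mp h).symm hne
  · exact h

theorem rel5b_of_rel {x₁ x₂ : F} (h1 : x₂ * fP E x₁ = phi2 E x₁)
    (h2 : x₁ * fP E x₂ = phi2 E x₂) : rel5b E (x₁ + x₂) (x₁ * x₂) = 0 := by
  simp only [rel5b, fP, phi2] at *
  linear_combination -h1 - h2

end Symmetric

section Multiples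

variable {F : Type*} [Field F] [DecidableEq F] {E : WeierstrassCurve.Affine F}

/-- Multiplication by a unit of `ℤ/5` permutes `{x(P), x(2P)}` for a `5`-torsion point `P`. -/
theorem xc_nsmul_five {Q : E.Point} (h5 : (5 : ℕ) • Q = 0) (n : ℕ) (hn : n < 5)
    (hnQ : n • Q ≠ 0) :
    (xc (n • Q) = xc Q ∧ xc (n • Q + n • Q) = xc (Q + Q)) ∨
      (xc (n • Q) = xc (Q + Q) ∧ xc (n • Q + n • Q) = xc Q) := by
  have e4 : Q + Q + (Q + Q) = -Q := by
    rw [eq_neg_iff_add_eq_zero, ← h5]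
    abel
  interval_cases n
  · rw [zero_nsmul] at hnQ
    exact absurd rfl hnQ
  · left
    rw [one_nsmul]
    exact ⟨rfl, rfl⟩
  · right
    rw [two_nsmul, e4, xc_neg]
    exact ⟨rfl, rfl⟩
  · right
    have e3 : 3 • Q = -(Q + Q) := by
      rw [eq_neg_iff_add_eq_zero, ← h5]
      abel
    have e6 : 3 • Q + 3 • Q = Q := by
      have : 3 • Q + 3 • Q = 5 • Q + Q := by abel
      rw [this, h5, zero_add]
    rw [e6, e3, xc_neg]
    exact ⟨rfl, rfl⟩
  · left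
    have e4' : 4 • Q = -Q := by
      rw [eq_neg_iff_add_eq_zero, ← h5]
      abel
    have e8 : 4 • Q + 4 • Q = -(Q + Q) := by
      rw [eq_neg_iff_add_eq_zero]
      have : 4 • Q + 4 • Q + (Q + Q) = 5 • Q + 5 • Q := by abel
      rw [this, h5, add_zero]
    rw [e8, e4', xc_neg, xc_neg]
    exact ⟨rfl, rfl⟩

end Multiples

section Main

local notation "Qbar" => AlgebraicClosure ℚ
local notation "GQ" => (AlgebraicClosure ℚ ≃ₐ[ℚ] AlgebraicClosure ℚ)

variable (E : WeierstrassCurve.Affine ℚ)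

theorem rel5a_baseChange (e1 e2 : ℚ) :
    rel5a (E⁄Qbar) (algebraMap ℚ Qbar e1) (algebraMap ℚ Qbar e2) =
      algebraMap ℚ Qbar (rel5a E e1 e2) := by
  simp only [rel5a, Affine.baseChange, WeierstrassCurve.baseChange, WeierstrassCurve.map_b₂,
    WeierstrassCurve.map_b₄, WeierstrassCurve.map_b₆]
  simp only [map_sub, map_mul, map_pow, map_ofNat]

theorem rel5b_baseChange (e1 e2 : ℚ) :
    rel5b (E⁄Qbar) (algebraMap ℚ Qbar e1) (algebraMap ℚ Qbar e2) =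
      algebraMap ℚ Qbar (rel5b E e1 e2) := by
  simp only [rel5b, Affine.baseChange, WeierstrassCurve.baseChange, WeierstrassCurve.map_b₂,
    WeierstrassCurve.map_b₄, WeierstrassCurve.map_b₆, WeierstrassCurve.map_b₈]
  simp only [map_add, map_sub, map_mul, map_pow, map_ofNat]

/-- Chunk B in terms of the curve over `ℚ`. -/
theorem exists_rel5 (hΔ : E.Δ ≠ 0)
    (h : ¬ Point.GaloisRepIsIrreducible (K := Qbar) ℚ E 5) :
    ∃ e1 e2 : ℚ, rel5a E e1 e2 = 0 ∧ rel5b E e1 e2 = 0 := by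
  by_contra hno
  apply h
  have hΔ' := Δ_baseChange_ne_zero E hΔ
  refine ⟨?_, ?_⟩
  · obtain ⟨P, hP0, hP5⟩ := exists_five_torsion (E := (E⁄Qbar)) hΔ'
    have hmem : P ∈ Submodule.torsionBy ℤ (E⁄Qbar).Point ((5 : ℕ) : ℤ) :=
      (mem_torsion_five_iff _).mpr hP5
    refine nontrivial_of_ne (⟨_, hmem⟩ : Submodule.torsionBy ℤ (E⁄Qbar).Point ((5 : ℕ) : ℤ)) 0 ?_
    intro h0
    exact hP0 (congrArg Subtype.val h0)
  · intro N hN
    by_contra hN'
    rw [not_or] at hN'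
    obtain ⟨hfin, hcard⟩ := torsion_five_finite_card (E := (E⁄Qbar))
    have : Finite (Submodule.torsionBy ℤ (E⁄Qbar).Point ((5 : ℕ) : ℤ)) := hfin
    have hcard' : Nat.card (Submodule.torsionBy ℤ (E⁄Qbar).Point ((5 : ℕ) : ℤ)) < 5 ^ 3 := by
      have : Nat.card (Submodule.torsionBy ℤ (E⁄Qbar).Point ((5 : ℕ) : ℤ)) =
          (↑(Submodule.torsionBy ℤ (E⁄Qbar).Point ((5 : ℕ) : ℤ)) : Set (E⁄Qbar).Point).ncard :=
        rfl
      rw [this]
      omega
    have : Fact (Nat.Prime 5) := ⟨by norm_num⟩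
    obtain ⟨P, hPN, hP0, hgen⟩ := exists_generator_of_proper hcard' N hN'.1 hN'.2
    have hP5 : (5 : ℕ) • (P : (E⁄Qbar).Point) = 0 := (mem_torsion_five_iff _).mp P.2
    have hP0' : (P : (E⁄Qbar).Point) ≠ 0 := fun h0 => hP0 (Subtype.ext h0)
    obtain ⟨-, hxne, hr1, hr2⟩ := five_rel hP0' hP5
    have hperm : ∀ σ : GQ,
        (σ (xc (P : (E⁄Qbar).Point)) = xc (P : (E⁄Qbar).Point) ∧
          σ (xc ((P : (E⁄Qbar).Point) + (P : (E⁄Qbar).Point))) = xc ((P : (E⁄Qbar).Point) + (P : (E⁄Qbar).Point))) ∨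
        (σ (xc (P : (E⁄Qbar).Point)) = xc ((P : (E⁄Qbar).Point) + (P : (E⁄Qbar).Point)) ∧
          σ (xc ((P : (E⁄Qbar).Point) + (P : (E⁄Qbar).Point))) = xc (P : (E⁄Qbar).Point)) := by
      intro σ
      obtain ⟨c, hc⟩ := hgen _ (hN σ P hPN)
      have hc' : σ • (P : (E⁄Qbar).Point) = c.val • (P : (E⁄Qbar).Point) := by
        have h1 : c • P = c.val • P := by
          conv_lhs => rw [← ZMod.natCast_zmod_val c]
          exact Nat.cast_smul_eq_nsmul (ZMod 5) c.val P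
        have h2 := congrArg (fun Q : Submodule.torsionBy ℤ (E⁄Qbar).Point ((5 : ℕ) : ℤ) =>
          (Q : (E⁄Qbar).Point)) (hc.trans h1)
        exact h2
      have hne : σ • (P : (E⁄Qbar).Point) ≠ 0 := fun h0 => hP0' ((smul_eq_zero_iff E σ _).mp h0)
      rw [hc'] at hne
      have hadd : σ • ((P : (E⁄Qbar).Point) + (P : (E⁄Qbar).Point)) =
          σ • (P : (E⁄Qbar).Point) + σ • (P : (E⁄Qbar).Point) :=
        map_add (Point.map (W' := E) σ.toAlgHom) _ _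
      rw [← xc_smul, ← xc_smul, hadd, hc']
      exact xc_nsmul_five hP5 c.val (ZMod.val_lt c) hne
    have hfix1 : ∀ σ : GQ, σ (xc (P : (E⁄Qbar).Point) + xc ((P : (E⁄Qbar).Point) + (P : (E⁄Qbar).Point))) =
        xc (P : (E⁄Qbar).Point) + xc ((P : (E⁄Qbar).Point) + (P : (E⁄Qbar).Point)) := by
      intro σ
      rw [map_add]
      rcases hperm σ with ⟨h1, h2⟩ | ⟨h1, h2⟩
      · rw [h1, h2]
      · rw [h1, h2, add_comm]
    have hfix2 : ∀ σ : GQ, σ (xc (P : (E⁄Qbar).Point) * xc ((P : (E⁄Qbar).Point) + (P : (E⁄Qbar).Point))) =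
        xc (P : (E⁄Qbar).Point) * xc ((P : (E⁄Qbar).Point) + (P : (E⁄Qbar).Point)) := by
      intro σ
      rw [map_mul]
      rcases hperm σ with ⟨h1, h2⟩ | ⟨h1, h2⟩
      · rw [h1, h2]
      · rw [h1, h2, mul_comm]
    obtain ⟨q1, hq1⟩ := exists_rat_of_fixed _ hfix1
    obtain ⟨q2, hq2⟩ := exists_rat_of_fixed _ hfix2
    apply hno
    refine ⟨q1, q2, ?_, ?_⟩
    · have h1 := rel5a_of_rel hxne hr1 hr2
      rw [← hq1, ← hq2, rel5a_baseChange] at h1
      exact (map_eq_zero_iff _ (algebraMap ℚ Qbar).injective).mp h1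
    · have h1 := rel5b_of_rel hr1 hr2
      rw [← hq1, ← hq2, rel5b_baseChange] at h1
      exact (map_eq_zero_iff _ (algebraMap ℚ Qbar).injective).mp h1

end Main

/-- Chunk B of the S51 plan. -/
theorem five_data (W : WeierstrassCurve ℤ) (hΔ : W.Δ ≠ 0) (h : ¬ W.ModRepIsIrreducible 5) :
    ∃ e1 e2 : ℚ, e1 ^ 3 - 6 * e1 * e2 - (W.b₂ : ℚ) * e2 - (W.b₄ : ℚ) * e1 - (W.b₆ : ℚ) = 0 ∧
      e1 ^ 4 - 8 * e1 ^ 2 * e2 + 10 * e2 ^ 2 - (W.b₂ : ℚ) * e1 * e2
        - (W.b₄ : ℚ) * (e1 ^ 2 + 2 * e2) - 3 * (W.b₆ : ℚ) * e1 - 2 * (W.b₈ : ℚ) = 0 := by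
  have hΔ' : (W.map (Int.castRingHom ℚ)).Δ ≠ 0 := by
    rw [WeierstrassCurve.map_Δ]
    exact (map_ne_zero_iff _ (Int.cast_injective (α := ℚ))).mpr hΔ
  obtain ⟨e1, e2, h1, h2⟩ := exists_rel5 (W.map (Int.castRingHom ℚ)) hΔ' h
  refine ⟨e1, e2, ?_, ?_⟩
  · simp only [rel5a, WeierstrassCurve.map_b₂, WeierstrassCurve.map_b₄, WeierstrassCurve.map_b₆,
      eq_intCast] at h1
    exact h1
  · simp only [rel5b, WeierstrassCurve.map_b₂, WeierstrassCurve.map_b₄, WeierstrassCurve.map_b₆,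
      WeierstrassCurve.map_b₈, eq_intCast] at h2
    exact h2

end Fermat.Agent.LibS51

end
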