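import Mathlib

/-!
# S51, chunk B helper: symmetric functions of the two x-coordinates of a 5-torsion line

Pure field algebra: from the two duplication relations `x₂ f(x₁) = φ(x₁)`, `x₁ f(x₂) = φ(x₂)`
with `x₁ ≠ x₂` we get the two equations (5a), (5b) in `e₁ = x₁ + x₂`, `e₂ = x₁ x₂`.
-/

namespace Fermat.Agent.S51Lib

theorem five_sym {K : Type*} [Field K] (b2 b4 b6 b8 x1 x2 : K) (hne : x1 ≠ x2)
    (h1 : x2 * (4 * x1 ^ 3 + b2 * x1 ^ 2 + 2 * b4 * x1 + b6)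
      = x1 ^ 4 - b4 * x1 ^ 2 - 2 * b6 * x1 - b8)
    (h2 : x1 * (4 * x2 ^ 3 + b2 * x2 ^ 2 + 2 * b4 * x2 + b6)
      = x2 ^ 4 - b4 * x2 ^ 2 - 2 * b6 * x2 - b8) :
    (x1 + x2) ^ 3 - 6 * (x1 + x2) * (x1 * x2) - b2 * (x1 * x2) - b4 * (x1 + x2) - b6 = 0 ∧
    (x1 + x2) ^ 4 - 8 * (x1 + x2) ^ 2 * (x1 * x2) + 10 * (x1 * x2) ^ 2
      - b2 * (x1 + x2) * (x1 * x2) - b4 * ((x1 + x2) ^ 2 + 2 * (x1 * x2))
      - 3 * b6 * (x1 + x2) - 2 * b8 = 0 := by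
  have hd : x1 - x2 ≠ 0 := sub_ne_zero.mpr hne
  refine ⟨?_, ?_⟩
  · apply mul_left_cancel₀ hd
    linear_combination h2 - h1
  · linear_combination (-1 : K) * h1 - h2

/-- Version for a rational pair `(e1, e2)` given as sum and product. -/
theorem five_sym' {K : Type*} [Field K] (b2 b4 b6 b8 x1 x2 e1 e2 : K) (hne : x1 ≠ x2)
    (he1 : e1 = x1 + x2) (he2 : e2 = x1 * x2)
    (h1 : x2 * (4 * x1 ^ 3 + b2 * x1 ^ 2 + 2 * b4 * x1 + b6)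
      = x1 ^ 4 - b4 * x1 ^ 2 - 2 * b6 * x1 - b8)
    (h2 : x1 * (4 * x2 ^ 3 + b2 * x2 ^ 2 + 2 * b4 * x2 + b6)
      = x2 ^ 4 - b4 * x2 ^ 2 - 2 * b6 * x2 - b8) :
    e1 ^ 3 - 6 * e1 * e2 - b2 * e2 - b4 * e1 - b6 = 0 ∧
    e1 ^ 4 - 8 * e1 ^ 2 * e2 + 10 * e2 ^ 2 - b2 * e1 * e2 - b4 * (e1 ^ 2 + 2 * e2)
      - 3 * b6 * e1 - 2 * b8 = 0 := by
  subst he1 he2
  exact five_sym b2 b4 b6 b8 x1 x2 hne h1 h2

end Fermat.Agent.S51Lib
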