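/-
S51 support library (helper2), chunk A: if the mod-3 representation of `W` is not irreducible,
then the 3-division polynomial of `W` has a rational root.
-/
import Mathlib
import Fermat.Prelude.Def_FLTPrelim_GaloisRep
import Fermat.Prelude.Def_FLTPrelim_ModularRep
import Fermat.Agent.Lib.S51.Dup

set_option autoImplicit false

open WeierstrassCurve

namespace Fermat.Agent.S51Lib

section torsion

open WeierstrassCurve.Affine

variable {F : Type*} [Field F] [DecidableEq F] (E : WeierstrassCurve.Affine F)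

lemma three_smul_eq (P : E.Point) : (3 : ℤ) • P = P + P + P := by
  rw [show (3:ℤ) = 1 + 1 + 1 by norm_num, add_smul, add_smul, one_smul]

/-- The `x`-coordinate of a nonzero 3-torsion point is a root of `ψ₃`. -/
lemma three_torsion_x (P : E.Point) (h3 : (3 : ℤ) • P = 0) (hP : P ≠ 0) :
    ∃ (x y : F) (h : E.Nonsingular x y), P = .some x y h ∧ psi3 E x = 0 := by
  rcases P with _ | ⟨x, y, h⟩
  · exact absurd rfl hP
  · refine ⟨x, y, h, rfl, ?_⟩
    have h3' : Point.some x y h + Point.some x y h = -Point.some x y h := by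
      rw [eq_neg_iff_add_eq_zero, ← three_smul_eq]; exact h3
    by_cases hy : y = E.negY x y
    · exfalso
      rw [Point.add_self_of_Y_eq hy] at h3'
      exact hP (neg_eq_zero.mp h3'.symm)
    · obtain ⟨x', y', h', hadd, hx'⟩ := dup E h hy
      rw [hadd, Point.neg_some] at h3'
      have hxx : x' = x := by
        injection h3'
      rw [psi3_eq, ← hx', hxx]; ring

/-- The polynomial `ψ₃`. -/
noncomputable def psi3Poly : Polynomial F :=
  Polynomial.C 3 * Polynomial.X ^ 4 + Polynomial.C E.b₂ * Polynomial.X ^ 3 +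
    Polynomial.C (3 * E.b₄) * Polynomial.X ^ 2 + Polynomial.C (3 * E.b₆) * Polynomial.X +
    Polynomial.C E.b₈

omit [DecidableEq F] in
lemma psi3Poly_eval (x : F) : (psi3Poly E).eval x = psi3 E x := by
  simp only [psi3Poly, psi3, Polynomial.eval_add, Polynomial.eval_mul, Polynomial.eval_C,
    Polynomial.eval_pow, Polynomial.eval_X]

omit [DecidableEq F] in
lemma psi3Poly_natDegree [CharZero F] : (psi3Poly E).natDegree = 4 := by
  unfold psi3Poly
  compute_degree!

omit [DecidableEq F] in
lemma psi3Poly_ne_zero [CharZero F] : psi3Poly E ≠ 0 := by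
  intro h
  have := psi3Poly_natDegree E
  rw [h] at this
  simp at this

/-- There is a point of exact order 3 over an algebraically closed field of characteristic 0. -/
lemma exists_three_torsion [CharZero F] [IsAlgClosed F] (hΔ : E.Δ ≠ 0) :
    ∃ P : E.Point, (3 : ℤ) • P = 0 ∧ P ≠ 0 := by
  obtain ⟨x₀, hx₀⟩ := IsAlgClosed.exists_root (psi3Poly E) (by
    rw [Polynomial.degree_eq_natDegree (psi3Poly_ne_zero E), psi3Poly_natDegree]; norm_num)
  rw [Polynomial.IsRoot, psi3Poly_eval] at hx₀
  obtain ⟨y₀, hy₀⟩ := IsAlgClosed.exists_root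
    (Polynomial.X ^ 2 + Polynomial.C (E.a₁ * x₀ + E.a₃) * Polynomial.X
      - Polynomial.C (x₀^3 + E.a₂ * x₀^2 + E.a₄ * x₀ + E.a₆) : Polynomial F) (by
    have : (Polynomial.X ^ 2 + Polynomial.C (E.a₁ * x₀ + E.a₃) * Polynomial.X
      - Polynomial.C (x₀^3 + E.a₂ * x₀^2 + E.a₄ * x₀ + E.a₆) : Polynomial F).natDegree = 2 := by
      compute_degree!
    intro h0
    rw [Polynomial.degree_eq_natDegree (by intro h; rw [h] at this; simp at this), this] at h0
    norm_num at h0)
  simp only [Polynomial.IsRoot, Polynomial.eval_add, Polynomial.eval_sub, Polynomial.eval_mul,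
    Polynomial.eval_C, Polynomial.eval_pow, Polynomial.eval_X] at hy₀
  have heq : E.Equation x₀ y₀ := by
    rw [Affine.equation_iff]; linear_combination hy₀
  have hns : E.Nonsingular x₀ y₀ := (Affine.equation_iff_nonsingular_of_Δ_ne_zero hΔ).mp heq
  have hf : fP E x₀ ≠ 0 := fun hf => hΔ (delta_eq_zero_of_common_root E hf hx₀)
  have hy : y₀ ≠ E.negY x₀ y₀ := by
    intro hy
    apply hf
    rw [fP_eq_sq E heq, ← hy]; ring
  obtain ⟨x', y', h', hadd, hx'⟩ := dup E hns hy
  have hxx : x' = x₀ := by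
    have h1 : x' * fP E x₀ = x₀ * fP E x₀ := by
      rw [hx']; have := psi3_eq E x₀; rw [hx₀] at this; linear_combination this
    exact mul_right_cancel₀ hf h1
  subst hxx
  refine ⟨Point.some x' y₀ hns, ?_, Point.some_ne_zero hns⟩
  rw [three_smul_eq, hadd]
  rcases (Point.X_eq_iff (h₁ := h') (h₂ := hns)).mp rfl with h1 | h1
  · exfalso
    rw [h1] at hadd
    have : Point.some x' y₀ hns = 0 := by
      have h2 : Point.some x' y₀ hns + Point.some x' y₀ hns = Point.some x' y₀ hns + 0 := by
        rw [hadd, add_zero]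
      exact add_left_cancel h2
    exact Point.some_ne_zero hns this
  · rw [h1]; exact neg_add_cancel _

end torsion

section galois

open WeierstrassCurve.Affine

local notation "Kb" => AlgebraicClosure ℚ

variable (W' : WeierstrassCurve.Affine ℚ)

lemma psi3_baseChange (q : ℚ) :
    psi3 (W'⁄Kb) (algebraMap ℚ Kb q) = algebraMap ℚ Kb (psi3 W' q) := by
  simp only [psi3, baseChange_b₂, baseChange_b₄, baseChange_b₆, baseChange_b₈, map_add, map_mul,
    map_pow, map_ofNat]

lemma zmod_three_cases (c : ZMod 3) : c = 0 ∨ c = 1 ∨ c = 2 := by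
  revert c; decide

/-- **Chunk A of S51** in terms of the rational curve. -/
theorem three_data_aux (hΔ : W'.Δ ≠ 0)
    (h : ¬ Affine.Point.GaloisRepIsIrreducible (K := Kb) ℚ W' 3) :
    ∃ x₃ : ℚ, psi3 W' x₃ = 0 := by
  classical
  have hΔ' : (W'⁄Kb).Δ ≠ 0 := baseChange_Δ_ne_zero W' hΔ
  unfold Affine.Point.GaloisRepIsIrreducible at h
  rw [not_and_or] at h
  rcases h with h | h
  · exfalso; apply h
    obtain ⟨P, hP3, hP0⟩ := exists_three_torsion (W'⁄Kb) hΔ'
    exact ⟨⟨⟨P, (Submodule.mem_torsionBy_iff _ _).mpr (by simpa using hP3)⟩, 0,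
      fun h => hP0 (congrArg Subtype.val h)⟩⟩
  · push Not at h
    obtain ⟨N, hN, hbot, htop⟩ := h
    have htors : ∀ t : Submodule.torsionBy ℤ (W'⁄Kb).Point (3:ℕ), (3 : ℤ) • t.val = 0 := by
      intro t
      simpa using (Submodule.mem_torsionBy_iff _ _).mp t.property
    have hcard : ∀ T : Finset (Submodule.torsionBy ℤ (W'⁄Kb).Point (3:ℕ)),
        (∀ t ∈ T, t ≠ 0) → T.card ≤ 8 := by
      intro T hT
      have := card_le_of_x_roots (W'⁄Kb) (psi3Poly (W'⁄Kb)) (psi3Poly_ne_zero _)
        (T.map ⟨Subtype.val, Subtype.val_injective⟩) (by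
          intro P hP
          obtain ⟨t, ht, rfl⟩ := Finset.mem_map.mp hP
          obtain ⟨x, y, hxy, hP, hx⟩ := three_torsion_x (W'⁄Kb) t.val (htors t)
            (fun h0 => hT t ht (Subtype.ext h0))
          exact ⟨x, y, hxy, hP, by rw [psi3Poly_eval]; exact hx⟩)
      rw [Finset.card_map, psi3Poly_natDegree] at this
      exact this
    obtain ⟨P, hPN, hP0, hgen⟩ := exists_generator (p := 3) 8 (by norm_num) hcard N hbot htop
    obtain ⟨x, y, hxy, hPval, hx⟩ := three_torsion_x (W'⁄Kb) P.val (htors P)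
      (fun h0 => hP0 (Subtype.ext h0))
    have hfix : ∀ σ : Kb ≃ₐ[ℚ] Kb, σ x = x := by
      intro σ
      obtain ⟨c, hc⟩ := hgen (σ • P) (hN σ P hPN)
      have hval : ((σ • P : Submodule.torsionBy ℤ (W'⁄Kb).Point (3:ℕ)) : (W'⁄Kb).Point)
          = Point.map (W' := W') σ.toAlgHom P.val := rfl
      have hc' : Point.map (W' := W') σ.toAlgHom P.val = (c • P).val := by rw [← hval, hc]
      rw [hPval, Point.map_some] at hc'
      have hcP : (c • P).val = 0 ∨ (c • P).val = P.val ∨ (c • P).val = -P.val := by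
        rcases zmod_three_cases c with rfl | rfl | rfl
        · left; simp
        · right; left; simp
        · right; right
          have h2 : ((2 : ZMod 3) • P) = P + P := by
            rw [show (2 : ZMod 3) = 1 + 1 by rfl, add_smul, one_smul]
          rw [h2, Submodule.coe_add, eq_neg_iff_add_eq_zero, ← three_smul_eq]
          exact htors P
      rcases hcP with h0 | h1 | h2
      · rw [h0] at hc'; exact absurd hc' (Point.some_ne_zero _)
      · rw [h1, hPval] at hc'; injection hc'
      · rw [h2, hPval, Point.neg_some] at hc'; injection hc'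
    obtain ⟨q, hq⟩ := fixed_rational x hfix
    refine ⟨q, ?_⟩
    have := psi3_baseChange W' q
    rw [hq, hx] at this
    exact (map_eq_zero_iff _ (algebraMap ℚ Kb).injective).mp this.symm


end galois

/-- **Chunk A of S51.** -/
theorem three_data (W : WeierstrassCurve ℤ) (hΔ : W.Δ ≠ 0) (h : ¬ W.ModRepIsIrreducible 3) :
    ∃ x3 : ℚ, 3*x3^4 + (W.b₂:ℚ)*x3^3 + 3*(W.b₄:ℚ)*x3^2 + 3*(W.b₆:ℚ)*x3 + (W.b₈:ℚ) = 0 := by
  have hΔ' : (W.map (Int.castRingHom ℚ)).Δ ≠ 0 := by
    rw [WeierstrassCurve.map_Δ]; simpa using hΔ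
  obtain ⟨x, hx⟩ := three_data_aux (W.map (Int.castRingHom ℚ)) hΔ' h
  refine ⟨x, ?_⟩
  simpa [psi3, WeierstrassCurve.map_b₂, WeierstrassCurve.map_b₄, WeierstrassCurve.map_b₆,
    WeierstrassCurve.map_b₈] using hx

end Fermat.Agent.S51Lib
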