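/-
S51 support library (helper2): existence of a point of exact order 5 on an elliptic curve over an
algebraically closed field of characteristic 0 (nontriviality of `E[5]`, part of chunk B).
A root `x₀` of `ψ₅ = preΨ₄ ψ₂⁴ - ψ₃³` gives a point `P` with `x(4P) = x(P)` and `3P ≠ 0`.
-/
import Mathlib
import Fermat.Agent.Lib.S51.Three

set_option autoImplicit false

open WeierstrassCurve

namespace Fermat.Agent.S51Lib

section idents

variable {F : Type*} [Field F] [CharZero F]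

lemma ident_pre4 (b2 b4 b6 b8 x : F) (hrel : 4*b8 = b2*b6 - b4^2) :
    4*(x^4 - b4*x^2 - 2*b6*x - b8)^3 + b2*(x^4 - b4*x^2 - 2*b6*x - b8)^2*(4*x^3 + b2*x^2 + 2*b4*x + b6)
      + 2*b4*(x^4 - b4*x^2 - 2*b6*x - b8)*(4*x^3 + b2*x^2 + 2*b4*x + b6)^2
      + b6*(4*x^3 + b2*x^2 + 2*b4*x + b6)^3
    = (2*x^6 + b2*x^5 + 5*b4*x^4 + 10*b6*x^3 + 10*b8*x^2 + (b2*b8 - b4*b6)*x + (b4*b8 - b6^2))^2 := by
  obtain rfl : b8 = (b2*b6 - b4^2)/4 := by
    rw [eq_div_iff (by norm_num : (4:F) ≠ 0)]; linear_combination hrel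
  ring

lemma ident_F16 (b2 b4 b6 b8 x : F) (hrel : 4*b8 = b2*b6 - b4^2) :
    (x^4 - b4*x^2 - 2*b6*x - b8)^4 - b4*(x^4 - b4*x^2 - 2*b6*x - b8)^2*(4*x^3 + b2*x^2 + 2*b4*x + b6)^2
      - 2*b6*(x^4 - b4*x^2 - 2*b6*x - b8)*(4*x^3 + b2*x^2 + 2*b4*x + b6)^3
      - b8*(4*x^3 + b2*x^2 + 2*b4*x + b6)^4
      - x*(4*x^3 + b2*x^2 + 2*b4*x + b6)*(4*(x^4 - b4*x^2 - 2*b6*x - b8)^3
        + b2*(x^4 - b4*x^2 - 2*b6*x - b8)^2*(4*x^3 + b2*x^2 + 2*b4*x + b6)
        + 2*b4*(x^4 - b4*x^2 - 2*b6*x - b8)*(4*x^3 + b2*x^2 + 2*b4*x + b6)^2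
        + b6*(4*x^3 + b2*x^2 + 2*b4*x + b6)^3)
    = -(3*x^4 + b2*x^3 + 3*b4*x^2 + 3*b6*x + b8) *
      ((2*x^6 + b2*x^5 + 5*b4*x^4 + 10*b6*x^3 + 10*b8*x^2 + (b2*b8 - b4*b6)*x + (b4*b8 - b6^2))
        * (4*x^3 + b2*x^2 + 2*b4*x + b6)^2 - (3*x^4 + b2*x^3 + 3*b4*x^2 + 3*b6*x + b8)^3) := by
  obtain rfl : b8 = (b2*b6 - b4^2)/4 := by
    rw [eq_div_iff (by norm_num : (4:F) ≠ 0)]; linear_combination hrel
  ring

end idents

section five

open WeierstrassCurve.Affine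

variable {F : Type*} [Field F] (E : WeierstrassCurve.Affine F)

/-- `preΨ₄ = ψ₄ / ψ₂` as a function of `x`. -/
def pre4 (x : F) : F :=
  2*x^6 + E.b₂*x^5 + 5*E.b₄*x^4 + 10*E.b₆*x^3 + 10*E.b₈*x^2 + (E.b₂*E.b₈ - E.b₄*E.b₆)*x
    + (E.b₄*E.b₈ - E.b₆^2)

/-- the 5-division polynomial as a function of `x`. -/
def psi5 (x : F) : F := pre4 E x * fP E x ^ 2 - psi3 E x ^ 3

lemma ident_pre4' [CharZero F] (x : F) :
    4*(phi2 E x)^3 + E.b₂*(phi2 E x)^2*(fP E x) + 2*E.b₄*(phi2 E x)*(fP E x)^2 + E.b₆*(fP E x)^3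
      = (pre4 E x)^2 :=
  ident_pre4 E.b₂ E.b₄ E.b₆ E.b₈ x E.b_relation

lemma ident_F16' [CharZero F] (x : F) :
    (phi2 E x)^4 - E.b₄*(phi2 E x)^2*(fP E x)^2 - 2*E.b₆*(phi2 E x)*(fP E x)^3 - E.b₈*(fP E x)^4
      - x*(fP E x)*(4*(phi2 E x)^3 + E.b₂*(phi2 E x)^2*(fP E x) + 2*E.b₄*(phi2 E x)*(fP E x)^2
        + E.b₆*(fP E x)^3)
      = -(psi3 E x) * psi5 E x :=
  ident_F16 E.b₂ E.b₄ E.b₆ E.b₈ x E.b_relation

/-- `ψ₂²(x(2P)) ψ₂²(x)³ = preΨ₄(x)²`. -/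
lemma fP_dup [CharZero F] {x x₂ : F} (h : x₂ * fP E x = phi2 E x) :
    fP E x₂ * fP E x ^ 3 = pre4 E x ^ 2 := by
  rw [← ident_pre4' E x, ← h]
  simp only [fP]
  ring

/-- `ψ₂²(x)⁴ (φ₂(x(2P)) - x ψ₂²(x(2P))) = -ψ₃(x) ψ₅(x)`. -/
lemma quad_dup [CharZero F] {x x₂ : F} (h : x₂ * fP E x = phi2 E x) :
    fP E x ^ 4 * (phi2 E x₂ - x * fP E x₂) = -(psi3 E x) * psi5 E x := by
  rw [← ident_F16' E x, ← h]
  simp only [fP, phi2]
  ring

noncomputable def fPoly : Polynomial F :=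
  Polynomial.C 4 * Polynomial.X ^ 3 + Polynomial.C E.b₂ * Polynomial.X ^ 2 +
    Polynomial.C (2 * E.b₄) * Polynomial.X + Polynomial.C E.b₆

noncomputable def pre4Poly : Polynomial F :=
  Polynomial.C 2 * Polynomial.X ^ 6 + Polynomial.C E.b₂ * Polynomial.X ^ 5 +
    Polynomial.C (5 * E.b₄) * Polynomial.X ^ 4 + Polynomial.C (10 * E.b₆) * Polynomial.X ^ 3 +
    Polynomial.C (10 * E.b₈) * Polynomial.X ^ 2 +
    Polynomial.C (E.b₂ * E.b₈ - E.b₄ * E.b₆) * Polynomial.X + Polynomial.C (E.b₄ * E.b₈ - E.b₆ ^ 2)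

noncomputable def psi5Poly : Polynomial F := pre4Poly E * fPoly E ^ 2 - psi3Poly E ^ 3

lemma psi5Poly_natDegree [CharZero F] : (psi5Poly E).natDegree = 12 := by
  unfold psi5Poly pre4Poly fPoly psi3Poly
  compute_degree!

lemma psi5Poly_eval (x : F) : (psi5Poly E).eval x = psi5 E x := by
  simp only [psi5Poly, pre4Poly, fPoly, psi5, pre4, fP, Polynomial.eval_add, Polynomial.eval_sub,
    Polynomial.eval_mul, Polynomial.eval_C, Polynomial.eval_pow, Polynomial.eval_X, psi3Poly_eval]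

/-- Over an algebraically closed field every `x` is the abscissa of a point of the curve. -/
lemma exists_y [IsAlgClosed F] (x₀ : F) : ∃ y₀ : F, E.Equation x₀ y₀ := by
  obtain ⟨y₀, hy₀⟩ := IsAlgClosed.exists_root
    (Polynomial.X ^ 2 + Polynomial.C (E.a₁ * x₀ + E.a₃) * Polynomial.X
      - Polynomial.C (x₀^3 + E.a₂ * x₀^2 + E.a₄ * x₀ + E.a₆) : Polynomial F) (by
    have : (Polynomial.X ^ 2 + Polynomial.C (E.a₁ * x₀ + E.a₃) * Polynomial.X
      - Polynomial.C (x₀^3 + E.a₂ * x₀^2 + E.a₄ * x₀ + E.a₆) : Polynomial F).natDegree = 2 := by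
      compute_degree!
    intro h0
    rw [Polynomial.degree_eq_natDegree (by intro h; rw [h] at this; simp at this), this] at h0
    norm_num at h0)
  simp only [Polynomial.IsRoot, Polynomial.eval_add, Polynomial.eval_sub, Polynomial.eval_mul,
    Polynomial.eval_C, Polynomial.eval_pow, Polynomial.eval_X] at hy₀
  exact ⟨y₀, by rw [Affine.equation_iff]; linear_combination hy₀⟩

variable [DecidableEq F]

lemma five_smul_eq (P : E.Point) : (5 : ℤ) • P = (P + P) + (P + P) + P := by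
  rw [show (5:ℤ) = 1 + 1 + 1 + 1 + 1 by norm_num]
  simp only [add_smul, one_smul]
  abel

/-- There is a point of exact order 5 over an algebraically closed field of characteristic 0. -/
theorem exists_five_torsion [CharZero F] [IsAlgClosed F] (hΔ : E.Δ ≠ 0) :
    ∃ P : E.Point, (5 : ℤ) • P = 0 ∧ P ≠ 0 := by
  have hp5 : psi5Poly E ≠ 0 := by
    intro h
    have := psi5Poly_natDegree E
    rw [h] at this
    simp at this
  obtain ⟨x₀, hx₀⟩ := IsAlgClosed.exists_root (psi5Poly E) (by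
    rw [Polynomial.degree_eq_natDegree hp5, psi5Poly_natDegree]; norm_num)
  rw [Polynomial.IsRoot, psi5Poly_eval] at hx₀
  obtain ⟨y₀, heq⟩ := exists_y E x₀
  have hns : E.Nonsingular x₀ y₀ := (Affine.equation_iff_nonsingular_of_Δ_ne_zero hΔ).mp heq
  have hx₀' : pre4 E x₀ * fP E x₀ ^ 2 - psi3 E x₀ ^ 3 = 0 := hx₀
  have hf : fP E x₀ ≠ 0 := by
    intro hf
    have h3 : psi3 E x₀ = 0 := by
      have : psi3 E x₀ ^ 3 = 0 := by rw [hf] at hx₀'; linear_combination -hx₀'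
      exact pow_eq_zero_iff (by norm_num) |>.mp this
    exact hΔ (delta_eq_zero_of_common_root E hf h3)
  have h3 : psi3 E x₀ ≠ 0 := by
    intro h3
    have hp4 : pre4 E x₀ = 0 := by
      have : pre4 E x₀ * fP E x₀ ^ 2 = 0 := by rw [h3] at hx₀'; linear_combination hx₀'
      rcases mul_eq_zero.mp this with h | h
      · exact h
      · exact absurd (pow_eq_zero_iff (by norm_num) |>.mp h) hf
    have hphi : x₀ * fP E x₀ = phi2 E x₀ := by
      have := psi3_eq E x₀; rw [h3] at this; linear_combination -this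
    have := fP_dup E hphi
    rw [hp4] at this
    have h4 : fP E x₀ ^ 4 = 0 := by linear_combination this
    exact hf (pow_eq_zero_iff (by norm_num) |>.mp h4)
  have hy : y₀ ≠ E.negY x₀ y₀ := by
    intro hy; apply hf; rw [fP_eq_sq E heq, ← hy]; ring
  obtain ⟨x₂, y₂, h₂, hadd, hx₂⟩ := dup E hns hy
  have hp4 : pre4 E x₀ ≠ 0 := by
    intro hp4
    apply h3
    have : psi3 E x₀ ^ 3 = 0 := by rw [hp4] at hx₀'; linear_combination -hx₀'
    exact pow_eq_zero_iff (by norm_num) |>.mp this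
  have hf₂ : fP E x₂ ≠ 0 := by
    intro hf₂
    have := fP_dup E hx₂
    rw [hf₂] at this
    have h0 : pre4 E x₀ ^ 2 = 0 := by linear_combination -this
    exact hp4 (pow_eq_zero_iff (by norm_num) |>.mp h0)
  have hy₂ : y₂ ≠ E.negY x₂ y₂ := by
    intro hy; apply hf₂; rw [fP_eq_sq E h₂.1, ← hy]; ring
  obtain ⟨x₄, y₄, h₄, hadd₂, hx₄⟩ := dup E h₂ hy₂
  have hx₄₀ : x₄ = x₀ := by
    have hkey := quad_dup E hx₂
    rw [hx₀, mul_zero] at hkey
    have hphi : phi2 E x₂ = x₀ * fP E x₂ := by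
      rcases mul_eq_zero.mp hkey with h | h
      · exact absurd (pow_eq_zero_iff (by norm_num) |>.mp h) hf
      · linear_combination h
    have h1 : x₄ * fP E x₂ = x₀ * fP E x₂ := by rw [hx₄, hphi]
    exact mul_right_cancel₀ hf₂ h1
  subst hx₄₀
  refine ⟨Point.some x₄ y₀ hns, ?_, Point.some_ne_zero hns⟩
  rw [five_smul_eq, hadd, hadd₂]
  rcases (Point.X_eq_iff (h₁ := h₄) (h₂ := hns)).mp rfl with h1 | h1
  · exfalso
    apply h3
    have h3P : (3 : ℤ) • Point.some x₄ y₀ hns = 0 := by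
      rw [three_smul_eq]
      have h5 : (Point.some x₄ y₀ hns + Point.some x₄ y₀ hns + Point.some x₄ y₀ hns)
          + Point.some x₄ y₀ hns = 0 + Point.some x₄ y₀ hns := by
        rw [zero_add]
        nth_rewrite 5 [← h1]
        rw [← hadd₂, ← hadd]; abel
      exact add_right_cancel h5
    obtain ⟨x, y, h, hP, hx⟩ := three_torsion_x E _ h3P (Point.some_ne_zero hns)
    injection hP with hxx
    rw [hxx]; exact hx
  · rw [h1]; exact neg_add_cancel _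

end five

end Fermat.Agent.S51Lib
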