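/-
S51 chunk C (helper3): pure algebra over `ℚ` and the semistability endgame.

A semistable integral Weierstrass curve cannot have simultaneously a rational root `x3` of its
3-division polynomial and rational `e1 = x1 + x2`, `e2 = x1 x2` for the `x`-coordinates of a
rational cyclic subgroup of order 5.  The Diophantine input is the statement `hdesc` that
`y² = x (x - 1) (x - 81)` has no rational point with `y ≠ 0` (chunk D).
-/
import Mathlib
import Fermat.Prelude.Def_FLTPrelim_Modularity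
import Fermat.Agent.Lib.S51.Descent

set_option autoImplicit false

namespace Fermat.Agent.S51Lib

namespace C

/-- Arithmetic endgame: an integer relation `α c₄³ = β Δ` with `5 ∤ α`, `5 ∣ β`, `125 ∤ β` is
incompatible with semistability at `5`. -/
theorem endgame (c4 Δ α β : ℤ) (h : α * c4 ^ 3 = β * Δ) (hα : ¬ (5 : ℤ) ∣ α) (hβ : (5 : ℤ) ∣ β)
    (hβ' : ¬ (125 : ℤ) ∣ β) (hss : (5 : ℤ) ∣ Δ → ¬ (5 : ℤ) ∣ c4) : False := by
  have hp : Prime (5 : ℤ) := Int.prime_iff_natAbs_prime.mpr (by norm_num)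
  have h1 : (5 : ℤ) ∣ α * c4 ^ 3 := by rw [h]; exact Dvd.dvd.mul_right hβ Δ
  have h2 : (5 : ℤ) ∣ c4 := hp.dvd_of_dvd_pow ((hp.dvd_or_dvd h1).resolve_left hα)
  have h3 : (5 : ℤ) ∣ Δ := by
    by_contra hΔ
    obtain ⟨k, rfl⟩ := h2
    have h4 : (5 : ℤ) ^ 3 ∣ β * Δ := by
      rw [← h]; exact ⟨α * k ^ 3, by ring⟩
    have h5 := hp.pow_dvd_of_dvd_mul_right 3 hΔ h4
    exact hβ' (by norm_num at h5; exact h5)
  exact hss h3 h2

/-- The rational points of the curve `X₀(15)` (in the guise of the system `Eq1`, `Eq2`), given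
the descent on `y² = x (x - 1) (x - 81)`. -/
theorem lam_cases (hdesc : ∀ x y : ℚ, y ^ 2 = x * (x - 1) * (x - 81) → y = 0)
    (lam eps1 eps2 : ℚ) (hlam0 : lam ≠ 0) (hlam27 : lam ≠ 27)
    (Eq1 : lam * (eps1 + eps2 + 1) = eps1 ^ 3 - 6 * eps1 * eps2)
    (Eq2 : lam * (eps1 ^ 2 + eps1 * eps2 + 3 * eps1 + 2 * eps2)
      = eps1 ^ 4 - 8 * eps1 ^ 2 * eps2 + 10 * eps2 ^ 2) :
    lam = -5 ∨ lam = 25 ∨ lam = 135 / 32 ∨ lam = -675 / 2 := by
  have hD : eps1 ^ 2 * (eps1 + eps2) ^ 2 - 5 * eps1 ^ 2 * eps2 - 11 * eps1 * eps2 ^ 2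
      - 5 * eps2 ^ 3 - 5 * eps2 ^ 2 = 0 := by
    linear_combination (-(1 / 2 : ℚ)) * (eps1 ^ 2 + eps1 * eps2 + 3 * eps1 + 2 * eps2) * Eq1
      + (1 / 2 : ℚ) * (eps1 + eps2 + 1) * Eq2
  by_cases h1 : eps1 = 0
  · -- `eps1 = 0`
    subst h1
    have h2 : eps2 ^ 2 * (eps2 + 1) = 0 := by linear_combination (-(1 / 5 : ℚ)) * hD
    rcases mul_eq_zero.mp h2 with h3 | h3
    · have h4 : eps2 = 0 := by simpa using h3
      subst h4
      exact absurd (by linear_combination Eq1 : lam = 0) hlam0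
    · have h4 : eps2 = -1 := by linarith
      subst h4
      left
      linear_combination (-(1 / 2 : ℚ)) * Eq2
  · by_cases h2 : eps2 = 0
    · subst h2
      have : eps1 ^ 4 = 0 := by linear_combination hD
      exact absurd (pow_eq_zero_iff (by norm_num) |>.mp this) h1
    by_cases h3 : eps1 + eps2 = 0
    · -- `kap = -1`
      have h4 : eps2 = -eps1 := by linarith
      subst h4
      have h5 : eps1 ^ 2 * (eps1 + 5) = 0 := by linear_combination (-1 : ℚ) * hD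
      have h6 : eps1 = -5 := by
        rcases mul_eq_zero.mp h5 with h | h
        · exact absurd (pow_eq_zero_iff (by norm_num) |>.mp h) h1
        · linarith
      subst h6
      right; left
      linear_combination Eq1
    · -- the generic case
      obtain ⟨z, hz⟩ : ∃ z : ℚ, z = eps1 ^ 2 / eps2 := ⟨_, rfl⟩
      obtain ⟨nu, hnu⟩ : ∃ nu : ℚ, nu = eps1 / (eps1 + eps2) := ⟨_, rfl⟩
      have hz0 : z ≠ 0 := by rw [hz]; positivity
      have hnu0 : nu ≠ 0 := by rw [hnu]; exact div_ne_zero h1 h3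
      have hzE : z * eps2 = eps1 ^ 2 := by rw [hz]; field_simp
      have hnuE : nu * (eps1 + eps2) = eps1 := by rw [hnu]; field_simp
      have hR : z ^ 2 - 5 * z + z * nu ^ 2 - z * nu - 5 * nu ^ 2 = 0 := by
        have hid : (z ^ 2 - 5 * z + z * nu ^ 2 - z * nu - 5 * nu ^ 2)
            * (eps2 ^ 2 * (eps1 + eps2) ^ 2)
            = eps1 ^ 2 * (eps1 ^ 2 * (eps1 + eps2) ^ 2 - 5 * eps1 ^ 2 * eps2
              - 11 * eps1 * eps2 ^ 2 - 5 * eps2 ^ 3 - 5 * eps2 ^ 2) := by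
          rw [hz, hnu]; field_simp; ring
        rw [hD, mul_zero] at hid
        exact (mul_eq_zero.mp hid).resolve_right (by positivity)
      -- the point on `Y² = x' (x'² + 41 x' + 400)`
      have hcurve : (8 * z * nu - 4 * z - 40 * nu) ^ 2
          = (-4 * z) * ((-4 * z) ^ 2 + 41 * (-4 * z) + 400) := by
        linear_combination 64 * (z - 5) * hR
      have hx' : (-4 * z) ≠ 0 := mul_ne_zero (by norm_num) hz0
      -- the 2-isogenous point
      have hiso := hdesc (((-4 * z) ^ 2 + 41 * (-4 * z) + 400) / (-4 * z))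
        ((8 * z * nu - 4 * z - 40 * nu) * (400 - (-4 * z) ^ 2) / (-4 * z) ^ 2) (by
          field_simp
          linear_combination (400 - (-4 * z) ^ 2) ^ 2 * hcurve)
      have hcases : 8 * z * nu - 4 * z - 40 * nu = 0 ∨ 400 - (-4 * z) ^ 2 = 0 := by
        rw [div_eq_zero_iff] at hiso
        rcases hiso with h | h
        · exact mul_eq_zero.mp h
        · exact absurd (pow_eq_zero_iff (by norm_num) |>.mp h) hx'
      -- the possible values of `(z, nu)`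
      have hzn : (z = -5 ∧ nu = 5 / 2) ∨ (z = -5 ∧ nu = -2) ∨ (z = 25 / 4 ∧ nu = 5 / 2)
          ∨ (z = 4 ∧ nu = -2) := by
        rcases hcases with hY | hX
        · have h4 : (-4 * z) * ((-4 * z) ^ 2 + 41 * (-4 * z) + 400) = 0 := by
            rw [← hcurve, hY]; ring
          have h5 : (4 * z - 25) * (z - 4) = 0 := by
            have := (mul_eq_zero.mp h4).resolve_left hx'
            linear_combination (1 / 4 : ℚ) * this
          rcases mul_eq_zero.mp h5 with h | h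
          · have hz' : z = 25 / 4 := by linarith
            right; right; left
            exact ⟨hz', by rw [hz'] at hY; linarith⟩
          · have hz' : z = 4 := by linarith
            right; right; right
            exact ⟨hz', by rw [hz'] at hY; linarith⟩
        · have h5 : (z - 5) * (z + 5) = 0 := by linear_combination (-(1 / 16 : ℚ)) * hX
          rcases mul_eq_zero.mp h5 with h | h
          · have hz' : z = 5 := by linarith
            rw [hz'] at hR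
            exact absurd (by linarith : nu = 0) hnu0
          · have hz' : z = -5 := by linarith
            rw [hz'] at hR
            have h6 : (2 * nu - 5) * (nu + 2) = 0 := by linear_combination (-(1 / 5 : ℚ)) * hR
            rcases mul_eq_zero.mp h6 with h | h
            · left; exact ⟨hz', by linarith⟩
            · right; left; exact ⟨hz', by linarith⟩
      rcases hzn with ⟨hz', hnu'⟩ | ⟨hz', hnu'⟩ | ⟨hz', hnu'⟩ | ⟨hz', hnu'⟩
      · -- `(eps1, eps2) = (3, -9/5)`, `lam = 27`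
        rw [hz'] at hzE; rw [hnu'] at hnuE
        have he2 : eps2 = -(3 / 5) * eps1 := by linarith
        have he1 : eps1 = 3 := by
          have : eps1 * (eps1 - 3) = 0 := by linear_combination (-1 : ℚ) * hzE - 5 * he2
          exact sub_eq_zero.mp ((mul_eq_zero.mp this).resolve_left h1)
        rw [he1] at he2
        rw [he1, he2] at Eq1
        exact absurd (by linarith : lam = 27) hlam27
      · -- `(eps1, eps2) = (15/2, -45/4)`, `lam = -675/2`
        rw [hz'] at hzE; rw [hnu'] at hnuE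
        have he2 : eps2 = -(3 / 2) * eps1 := by linarith
        have he1 : eps1 = 15 / 2 := by
          have : eps1 * (eps1 - 15 / 2) = 0 := by linear_combination (-1 : ℚ) * hzE - 5 * he2
          exact sub_eq_zero.mp ((mul_eq_zero.mp this).resolve_left h1)
        rw [he1] at he2
        rw [he1, he2] at Eq1
        right; right; right
        linarith
      · -- `(eps1, eps2) = (-15/4, 9/4)`, `lam = 135/32`
        rw [hz'] at hzE; rw [hnu'] at hnuE
        have he2 : eps2 = -(3 / 5) * eps1 := by linarith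
        have he1 : eps1 = -15 / 4 := by
          have : eps1 * (eps1 + 15 / 4) = 0 := by
            linear_combination (-1 : ℚ) * hzE + 25 / 4 * he2
          have h7 := (mul_eq_zero.mp this).resolve_left h1
          linarith
        rw [he1] at he2
        rw [he1, he2] at Eq1
        right; right; left
        linarith
      · -- `(eps1, eps2) = (-6, 9)`, `lam = 27`
        rw [hz'] at hzE; rw [hnu'] at hnuE
        have he2 : eps2 = -(3 / 2) * eps1 := by linarith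
        have he1 : eps1 = -6 := by
          have : eps1 * (eps1 + 6) = 0 := by linear_combination (-1 : ℚ) * hzE + 4 * he2
          have h7 := (mul_eq_zero.mp this).resolve_left h1
          linarith
        rw [he1] at he2
        rw [he1, he2] at Eq1
        exact absurd (by linarith : lam = 27) hlam27


/-- The four exceptional values of `lam` are incompatible with semistability at `5`. -/
theorem no_semistable (c4 Δ : ℤ) (hss : (5 : ℤ) ∣ Δ → ¬ (5 : ℤ) ∣ c4) (lam : ℚ)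
    (hl : lam = -5 ∨ lam = 25 ∨ lam = 135 / 32 ∨ lam = -675 / 2)
    (hrel : (c4 : ℚ) ^ 3 * (lam - 27) = (Δ : ℚ) * lam * (lam - 24) ^ 3) : False := by
  rcases hl with rfl | rfl | rfl | rfl
  · have h : ((-32 : ℤ) : ℚ) * (c4 : ℚ) ^ 3 = ((121945 : ℤ) : ℚ) * (Δ : ℚ) := by
      push_cast; linear_combination hrel
    have h' : (-32 : ℤ) * c4 ^ 3 = 121945 * Δ := by exact_mod_cast h
    exact endgame c4 Δ _ _ h' (by norm_num) (by norm_num) (by norm_num) hss
  · have h : ((-2 : ℤ) : ℚ) * (c4 : ℚ) ^ 3 = ((25 : ℤ) : ℚ) * (Δ : ℚ) := by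
      push_cast; linear_combination hrel
    have h' : (-2 : ℤ) * c4 ^ 3 = 25 * Δ := by exact_mod_cast h
    exact endgame c4 Δ _ _ h' (by norm_num) (by norm_num) (by norm_num) hss
  · have h : ((32768 : ℤ) : ℚ) * (c4 : ℚ) ^ 3 = ((46969655 : ℤ) : ℚ) * (Δ : ℚ) := by
      push_cast; linear_combination (-1048576 / 729 : ℚ) * hrel
    have h' : (32768 : ℤ) * c4 ^ 3 = 46969655 * Δ := by exact_mod_cast h
    exact endgame c4 Δ _ _ h' (by norm_num) (by norm_num) (by norm_num) hss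
  · have h : ((-8 : ℤ) : ℚ) * (c4 : ℚ) ^ 3 = ((349938025 : ℤ) : ℚ) * (Δ : ℚ) := by
      push_cast; linear_combination (16 / 729 : ℚ) * hrel
    have h' : (-8 : ℤ) * c4 ^ 3 = 349938025 * Δ := by exact_mod_cast h
    exact endgame c4 Δ _ _ h' (by norm_num) (by norm_num) (by norm_num) hss

/-- The algebraic core: after translating the root of the 3-division polynomial to `0`, the
curve is `y² = 4x³ + λt x² + 2λt² x + λt³` and `λ` is one of four exceptional values. -/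
theorem core (hdesc : ∀ x y : ℚ, y ^ 2 = x * (x - 1) * (x - 81) → y = 0)
    (b2 b4 b6 b8 c4 Δ : ℚ) (hrel : 4 * b8 = b2 * b6 - b4 ^ 2) (hc4 : c4 = b2 ^ 2 - 24 * b4)
    (hΔ : Δ = -b2 ^ 2 * b8 - 8 * b4 ^ 3 - 27 * b6 ^ 2 + 9 * b2 * b4 * b6) (hΔ0 : Δ ≠ 0)
    (r e1 e2 : ℚ)
    (h3 : 3 * r ^ 4 + b2 * r ^ 3 + 3 * b4 * r ^ 2 + 3 * b6 * r + b8 = 0)
    (h5a : e1 ^ 3 - 6 * e1 * e2 - b2 * e2 - b4 * e1 - b6 = 0)
    (h5b : e1 ^ 4 - 8 * e1 ^ 2 * e2 + 10 * e2 ^ 2 - b2 * e1 * e2 - b4 * (e1 ^ 2 + 2 * e2)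
      - 3 * b6 * e1 - 2 * b8 = 0) :
    c4 = 0 ∨ ∃ lam : ℚ, (lam = -5 ∨ lam = 25 ∨ lam = 135 / 32 ∨ lam = -675 / 2) ∧
      c4 ^ 3 * (lam - 27) = Δ * lam * (lam - 24) ^ 3 := by
  -- translate the root to `0`
  obtain ⟨B2, hB2⟩ : ∃ B2 : ℚ, B2 = b2 + 12 * r := ⟨_, rfl⟩
  obtain ⟨B4, hB4⟩ : ∃ B4 : ℚ, B4 = b4 + r * b2 + 6 * r ^ 2 := ⟨_, rfl⟩
  obtain ⟨B6, hB6⟩ : ∃ B6 : ℚ, B6 = b6 + 2 * r * b4 + r ^ 2 * b2 + 4 * r ^ 3 := ⟨_, rfl⟩
  obtain ⟨E1, hE1⟩ : ∃ E1 : ℚ, E1 = e1 - 2 * r := ⟨_, rfl⟩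
  obtain ⟨E2, hE2⟩ : ∃ E2 : ℚ, E2 = e2 - r * e1 + r ^ 2 := ⟨_, rfl⟩
  have hB : B2 * B6 = B4 ^ 2 := by
    rw [hB2, hB4, hB6]; linear_combination 4 * h3 - hrel
  have hc4' : c4 = B2 ^ 2 - 24 * B4 := by rw [hc4, hB2, hB4]; ring
  have hΔ' : Δ = -8 * B4 ^ 3 - 27 * B6 ^ 2 + 9 * B2 * B4 * B6 := by
    rw [hΔ, hB2, hB4, hB6]
    linear_combination (-((b2 + 12 * r) ^ 2)) * h3 + (6 * r * b2 + 36 * r ^ 2) * hrel
  have h5a' : E1 ^ 3 - 6 * E1 * E2 - B2 * E2 - B4 * E1 - B6 = 0 := by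
    rw [hE1, hE2, hB2, hB4, hB6]; linear_combination h5a
  have h5b' : E1 ^ 4 - 8 * E1 ^ 2 * E2 + 10 * E2 ^ 2 - B2 * E1 * E2 - B4 * (E1 ^ 2 + 2 * E2)
      - 3 * B6 * E1 = 0 := by
    rw [hE1, hE2, hB2, hB4, hB6]; linear_combination h5b + 2 * h3
  clear hB2 hB4 hB6 hE1 hE2 h5a h5b h3 hrel hΔ hc4
  by_cases hB40 : B4 = 0
  · left
    have h1 : B2 * B6 = 0 := by rw [hB, hB40]; ring
    have h2 : B6 ≠ 0 := by
      rintro rfl
      apply hΔ0
      rw [hΔ', hB40]; ring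
    have h3 : B2 = 0 := (mul_eq_zero.mp h1).resolve_right h2
    rw [hc4', h3, hB40]; ring
  · right
    have hB20 : B2 ≠ 0 := by
      rintro rfl
      apply hB40
      have : B4 ^ 2 = 0 := by rw [← hB]; ring
      exact pow_eq_zero_iff (by norm_num) |>.mp this
    obtain ⟨lam, hlam⟩ : ∃ lam : ℚ, lam = B2 ^ 2 / B4 := ⟨_, rfl⟩
    obtain ⟨t, ht⟩ : ∃ t : ℚ, t = B4 / B2 := ⟨_, rfl⟩
    obtain ⟨eps1, heps1⟩ : ∃ eps1 : ℚ, eps1 = E1 / t := ⟨_, rfl⟩
    obtain ⟨eps2, heps2⟩ : ∃ eps2 : ℚ, eps2 = E2 / t ^ 2 := ⟨_, rfl⟩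
    have ht0 : t ≠ 0 := by rw [ht]; exact div_ne_zero hB40 hB20
    have hlam0 : lam ≠ 0 := by rw [hlam]; positivity
    have eB2 : B2 = lam * t := by rw [hlam, ht]; field_simp
    have eB4 : B4 = lam * t ^ 2 := by rw [hlam, ht]; field_simp
    have eB6 : B6 = lam * t ^ 3 := by
      have h1 : B6 = B4 ^ 2 / B2 := by rw [← hB]; field_simp
      rw [h1, hlam, ht]; field_simp
    have eE1 : E1 = eps1 * t := by rw [heps1]; field_simp
    have eE2 : E2 = eps2 * t ^ 2 := by rw [heps2]; field_simp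
    have Eq1 : lam * (eps1 + eps2 + 1) = eps1 ^ 3 - 6 * eps1 * eps2 := by
      have h : t ^ 3 * (eps1 ^ 3 - 6 * eps1 * eps2 - lam * (eps1 + eps2 + 1)) = 0 := by
        rw [eE1, eE2, eB2, eB4, eB6] at h5a'
        linear_combination h5a'
      have := (mul_eq_zero.mp h).resolve_left (pow_ne_zero 3 ht0)
      linarith
    have Eq2 : lam * (eps1 ^ 2 + eps1 * eps2 + 3 * eps1 + 2 * eps2)
        = eps1 ^ 4 - 8 * eps1 ^ 2 * eps2 + 10 * eps2 ^ 2 := by
      have h : t ^ 4 * (eps1 ^ 4 - 8 * eps1 ^ 2 * eps2 + 10 * eps2 ^ 2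
          - lam * (eps1 ^ 2 + eps1 * eps2 + 3 * eps1 + 2 * eps2)) = 0 := by
        rw [eE1, eE2, eB2, eB4, eB6] at h5b'
        linear_combination h5b'
      have := (mul_eq_zero.mp h).resolve_left (pow_ne_zero 4 ht0)
      linarith
    have ec4 : c4 = lam * t ^ 2 * (lam - 24) := by rw [hc4', eB2, eB4]; ring
    have eΔ : Δ = lam ^ 2 * t ^ 6 * (lam - 27) := by rw [hΔ', eB2, eB4, eB6]; ring
    have hlam27 : lam ≠ 27 := by
      rintro rfl
      apply hΔ0
      rw [eΔ]; ring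
    refine ⟨lam, lam_cases hdesc lam eps1 eps2 hlam0 hlam27 Eq1 Eq2, ?_⟩
    rw [ec4, eΔ]; ring

/-- Chunk C with the descent as an explicit hypothesis. A semistable integral Weierstrass curve has no rational root `x3` of its
3-division polynomial together with rational `e1`, `e2` satisfying the two relations coming from
a rational cyclic subgroup of order 5 (given the descent `hdesc`). -/
theorem no_three_five_of_descent (W : WeierstrassCurve ℤ) (hΔ : W.Δ ≠ 0) (hW : W.IsSemistableModel)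
    (hdesc : ∀ x y : ℚ, y ^ 2 = x * (x - 1) * (x - 81) → y = 0)
    (x3 e1 e2 : ℚ)
    (h3 : 3 * x3 ^ 4 + (W.b₂ : ℚ) * x3 ^ 3 + 3 * (W.b₄ : ℚ) * x3 ^ 2 + 3 * (W.b₆ : ℚ) * x3
      + (W.b₈ : ℚ) = 0)
    (h5a : e1 ^ 3 - 6 * e1 * e2 - (W.b₂ : ℚ) * e2 - (W.b₄ : ℚ) * e1 - (W.b₆ : ℚ) = 0)
    (h5b : e1 ^ 4 - 8 * e1 ^ 2 * e2 + 10 * e2 ^ 2 - (W.b₂ : ℚ) * e1 * e2
      - (W.b₄ : ℚ) * (e1 ^ 2 + 2 * e2) - 3 * (W.b₆ : ℚ) * e1 - 2 * (W.b₈ : ℚ) = 0) : False := by
  have hrel : 4 * (W.b₈ : ℚ) = (W.b₂ : ℚ) * (W.b₆ : ℚ) - (W.b₄ : ℚ) ^ 2 := by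
    exact_mod_cast W.b_relation
  have hc4 : (W.c₄ : ℚ) = (W.b₂ : ℚ) ^ 2 - 24 * (W.b₄ : ℚ) := by
    rw [WeierstrassCurve.c₄]; push_cast; ring
  have hΔq : (W.Δ : ℚ) = -(W.b₂ : ℚ) ^ 2 * (W.b₈ : ℚ) - 8 * (W.b₄ : ℚ) ^ 3
      - 27 * (W.b₆ : ℚ) ^ 2 + 9 * (W.b₂ : ℚ) * (W.b₄ : ℚ) * (W.b₆ : ℚ) := by
    rw [WeierstrassCurve.Δ]; push_cast; ring
  have hΔ0 : (W.Δ : ℚ) ≠ 0 := by exact_mod_cast hΔ
  rcases core hdesc _ _ _ _ _ _ hrel hc4 hΔq hΔ0 x3 e1 e2 h3 h5a h5b with hc | ⟨lam, hl, hr⟩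
  · -- `c₄ = 0`
    have hc0 : W.c₄ = 0 := by exact_mod_cast hc
    have habs : W.Δ.natAbs = 1 := by
      by_contra hne
      obtain ⟨p, hp, hpd⟩ := Nat.exists_prime_and_dvd hne
      have hpΔ : (p : ℤ) ∣ W.Δ := Int.natCast_dvd.mpr hpd
      exact hW p hp hpΔ (by rw [hc0]; exact dvd_zero _)
    have hcr := W.c_relation
    rw [hc0] at hcr
    rcases Int.natAbs_eq W.Δ with h | h
    · rw [h, habs] at hcr
      have h6 : W.c₆ ^ 2 = -1728 := by push_cast at hcr; linarith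
      nlinarith [sq_nonneg W.c₆]
    · rw [h, habs] at hcr
      have h6 : W.c₆ ^ 2 = 1728 := by push_cast at hcr; linarith
      have h7 : |W.c₆| ≤ 41 ∨ 42 ≤ |W.c₆| := by omega
      rw [← sq_abs] at h6
      rcases h7 with h7 | h7
      · nlinarith [abs_nonneg W.c₆]
      · nlinarith [abs_nonneg W.c₆]
  · exact no_semistable W.c₄ W.Δ (fun h5 => hW 5 Nat.prime_five (by exact_mod_cast h5)) lam hl hr

end C

/-- **Chunk C.** A semistable integral Weierstrass curve has no rational root `x3` of its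
3-division polynomial together with rational `e1`, `e2` satisfying the two relations coming from
a rational cyclic subgroup of order 5. -/
theorem no_three_five (W : WeierstrassCurve ℤ) (hΔ : W.Δ ≠ 0) (hW : W.IsSemistableModel)
    (x3 e1 e2 : ℚ)
    (h3 : 3 * x3 ^ 4 + (W.b₂ : ℚ) * x3 ^ 3 + 3 * (W.b₄ : ℚ) * x3 ^ 2 + 3 * (W.b₆ : ℚ) * x3
      + (W.b₈ : ℚ) = 0)
    (h5a : e1 ^ 3 - 6 * e1 * e2 - (W.b₂ : ℚ) * e2 - (W.b₄ : ℚ) * e1 - (W.b₆ : ℚ) = 0)
    (h5b : e1 ^ 4 - 8 * e1 ^ 2 * e2 + 10 * e2 ^ 2 - (W.b₂ : ℚ) * e1 * e2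
      - (W.b₄ : ℚ) * (e1 ^ 2 + 2 * e2) - 3 * (W.b₆ : ℚ) * e1 - 2 * (W.b₈ : ℚ) = 0) : False :=
  C.no_three_five_of_descent W hΔ hW descent x3 e1 e2 h3 h5a h5b

end Fermat.Agent.S51Lib
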